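import Fermat.Agent.RTLift.Setup.Points.Residual
import Fermat.Agent.RTLift.Setup.Places
import Fermat.Agent.GalRep.Construct.Datum
import Fermat.Agent.BadRed.Semistable.Endgame

/-!
# The point datum of a point of a level, and arithmetic of the levels

A point of a level gives a point datum at the untwisted level, away from `p` and the level; the
inertia at an auxiliary prime is unipotent on it.
-/

set_option autoImplicit false

noncomputable section

namespace FermatAgent.RTLift.Setup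

open IsLocalRing Polynomial CuspForm

local notation "Qb" => AlgebraicClosure ℚ
local notation "GQ" => AlgebraicClosure ℚ ≃ₐ[ℚ] AlgebraicClosure ℚ

section Levels

variable {O : Type} [CommRing O] [IsLocalRing O] [IsAdicComplete (maximalIdeal O) O]
  {p r : ℕ} [Fact p.Prime] [Algebra (ZMod p) (ResidueField O)] {I : Type} [Fintype I]
  (C : Ctx O p r I)

theorem Ctx.dvd_base_iff (j : Option I) :
    ∀ L : List (Option I), (C.place j : ℕ) ∣ C.base L ↔ j ∈ L
  | [] => by simp [Ctx.base, (C.place j).2.ne_one]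
  | i :: L => by
    rw [Ctx.base, (C.place j).2.dvd_mul, dvd_base_iff j L,
      Nat.prime_dvd_prime_iff_eq (C.place j).2 (C.place i).2, List.mem_cons, or_comm]
    exact or_congr ⟨fun h => C.place_injective (Subtype.ext h), fun h => by rw [h]⟩ Iff.rfl

theorem Ctx.sq_not_dvd_base (j : Option I) :
    ∀ {L : List (Option I)}, L.Nodup → ¬ (C.place j : ℕ) ^ 2 ∣ C.base L
  | [], _ => by
    rw [Ctx.base, Nat.dvd_one]
    exact fun h => (C.place j).2.ne_one ((Nat.pow_eq_one.mp h).resolve_right two_ne_zero)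
  | i :: L, hL => by
    obtain ⟨hi, hL'⟩ := List.nodup_cons.mp hL
    intro h
    rw [Ctx.base] at h
    by_cases hij : j = i
    · subst hij
      rw [sq, Nat.mul_dvd_mul_iff_right (C.place j).2.pos, C.dvd_base_iff] at h
      exact hi h
    · refine sq_not_dvd_base j hL' ((Nat.Coprime.dvd_mul_right ?_).mp h)
      exact (((Nat.coprime_primes (C.place j).2 (C.place i).2).mpr fun e =>
        hij (C.place_injective (Subtype.ext e))).pow_left 2)

theorem Ctx.coprime_place_modulus (n : ℕ) (j : Option I) :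
    (C.place j : ℕ).Coprime (C.modulus n) :=
  C.coprime_modulus fun k e => C.Q_notMem n k (e ▸ by
    cases j
    exacts [Finset.mem_insert_self _ _,
      Finset.mem_insert_of_mem (Finset.mem_image_of_mem _ (Finset.mem_univ _))])

theorem Ctx.place_dvd_lvl_iff (n : ℕ) (j : Option I) (L : List (Option I)) :
    (C.place j : ℕ) ∣ C.lvl n L ↔ j ∈ L := by
  rw [C.lvl_eq, (C.coprime_place_modulus n j).dvd_mul_left, C.dvd_base_iff]

theorem Ctx.place_dvd_hlvl_iff (n : ℕ) (j : Option I) (L : List (Option I)) :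
    (C.place j : ℕ) ∣ C.hlvl n L ↔ j ∈ L := by
  rw [(C.coprime_place_modulus n j).dvd_mul_right, C.place_dvd_lvl_iff]

theorem Ctx.sq_not_dvd_hlvl (n : ℕ) (j : Option I) {L : List (Option I)} (hL : L.Nodup) :
    ¬ (C.place j : ℕ) ^ 2 ∣ C.hlvl n L := by
  have h := (C.coprime_place_modulus n j).pow_left 2
  rw [Ctx.hlvl, h.dvd_mul_right, C.lvl_eq, h.dvd_mul_left]
  exact C.sq_not_dvd_base j hL

end Levels

variable {O : Type} [CommRing O] [IsDomain O] [IsDiscreteValuationRing O]
  [IsAdicComplete (maximalIdeal O) O] [Finite (ResidueField O)] [CharZero O]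
  {p r : ℕ} [Fact p.Prime] [Algebra (ZMod p) (ResidueField O)] {I : Type} [Fintype I]
  {C : Ctx O p r I} {n : ℕ} {L : List (Option I)}

namespace PointData

variable (P : PointData C n L)

omit [Finite (ResidueField O)] [CharZero O] in
theorem natCast_mem_maximalIdeal : (p : P.A) ∈ maximalIdeal P.A :=
  GalRep.natCast_mem_maximalIdeal_of_algebra (𝒪 := O) C.hp

omit [Finite (ResidueField O)] [CharZero O] in
theorem det_eq_padic (σ : GQ) :
    (P.rep σ).det = algebraMap O P.A (GalRep.padicToRing C.hp (GalRep.cycChar p σ)) :=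
  P.det_eq σ

omit [Finite (ResidueField O)] [CharZero O] in
theorem det_frob {q : ℕ} (hq : q.Prime) (hqp : q ≠ p) {A : ValuationSubring Qb}
    (hA : A.LiesOverPrime q) {φ : GQ} (hφ : A.IsFrobeniusAt φ q) :
    (P.rep φ).det = (q : P.A) := by
  rw [P.det_eq_padic, GalRep.cycChar_frobenius (p := p) hq hqp hA hφ, map_natCast, map_natCast]

/-- The bad primes of the point datum. -/
abbrev badPrimes (_P : PointData C n L) : Finset ℕ := insert p (C.hlvl n L).primeFactors

omit [Finite (ResidueField O)] [CharZero O] in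
theorem primeFactors_subset :
    ((C.hlvl n L).primeFactors : Set ℕ) ⊆ (↑P.badPrimes : Set ℕ) :=
  Finset.coe_subset.mpr (Finset.subset_insert _ _)

omit [Finite (ResidueField O)] [CharZero O] in
theorem mem_badPrimes_of_dvd (q : ℕ) (hq : q.Prime) (hd : q ∣ C.hlvl n L) :
    q ∈ (↑P.badPrimes : Set ℕ) :=
  P.primeFactors_subset (Nat.mem_primeFactors.mpr ⟨hq, hd, NeZero.ne _⟩)

omit [Finite (ResidueField O)] [CharZero O] in
/-- The Hecke value at a good prime is the trace of Frobenius. -/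
theorem trace_frob_χ {ℓ : ℕ} (hℓ : ℓ.Prime) (hℓl : ¬ ℓ ∣ C.lvl n L) (hℓp : ℓ ≠ p)
    {A : ValuationSubring Qb} (hA : A.LiesOverPrime ℓ) {φ : GQ} (hφ : A.IsFrobeniusAt φ ℓ) :
    (P.rep φ).trace = P.χ (heckeAlgebra.T hℓ (C.not_dvd_hlvl hℓ hℓl)
      (C.notMem_primeFactors_hlvl hℓ hℓl)) :=
  (P.trace_frob ⟨⟨ℓ, hℓ⟩, hℓl, hℓ.ne_zero⟩ hℓp A hA φ hφ).trans
    (P.χ_T ⟨⟨ℓ, hℓ⟩, hℓl, hℓ.ne_zero⟩).symm

/-- The point datum. -/
def datum : GalRep.PointDatum (C.hlvl n L) (↑P.badPrimes : Set ℕ) P.A where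
  π := P.χ.comp (Subalgebra.inclusion (heckeAlgebra_mono P.primeFactors_subset)).toRingHom
  ρ := DefRing.toAdic P.rep P.cont
  charpoly_frob ℓ hℓ hℓN hℓS A hA σ hσ := by
    have hℓl : ¬ ℓ ∣ C.lvl n L := fun h => hℓN (h.mul_right _)
    have hℓp : ℓ ≠ p := fun e => hℓS (Finset.mem_coe.mpr (Finset.mem_insert.mpr (Or.inl e)))
    refine (Matrix.charpoly_toLin' (P.rep σ)).trans ?_
    rw [Matrix.charpoly_fin_two, P.det_frob hℓ hℓp hA hσ, P.trace_frob_χ hℓ hℓl hℓp hA hσ]
    rfl
  residual_absIrr := P.residual_absIrr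

omit [Finite (ResidueField O)] [CharZero O] in
theorem two_regular (x : P.A) (hx : 2 * x = 0) : x = 0 :=
  (mul_eq_zero.mp hx).resolve_left two_ne_zero

omit [Finite (ResidueField O)] [CharZero O] in
/-- Inertia at an auxiliary prime of the level is unipotent. -/
theorem unipotent (hL : L.Nodup) (i : I) (hi : some i ∈ L) {A : ValuationSubring Qb}
    (hA : A.LiesOverPrime (C.Fr.q i : ℕ)) {σ : GQ} (hσ : σ ∈ A.inertiaSubgroupIn ℚ) :
    (P.rep σ).trace = 2 ∧ (P.rep σ).det = 1 := by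
  have hq := (C.Fr.q i).2
  have key : ∀ {N : ℕ} [NeZero N], (C.Fr.q i : ℕ) ∣ N → ¬ (C.Fr.q i : ℕ) ^ 2 ∣ N →
      (∀ q : ℕ, q.Prime → q ∣ N → q ∈ (↑P.badPrimes : Set ℕ)) →
      ∀ H : GalRep.PointDatum N (↑P.badPrimes : Set ℕ) P.A,
        H.ρ.IsUnipotentOnInertiaAt (C.Fr.q i : ℕ) := by
    intro N _ hd h2 hNS H
    obtain ⟨N', rfl⟩ := hd
    have : Fact (C.Fr.q i : ℕ).Prime := ⟨hq⟩
    have : NeZero N' := ⟨fun h => NeZero.ne ((C.Fr.q i : ℕ) * N') (by rw [h, mul_zero])⟩
    exact BadRed.Semistable.pointDatum_isUnipotentOnInertiaAt (C.Fr.ne i).symm h2 hNS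
      P.natCast_mem_maximalIdeal P.two_regular H
  have h := key ((C.place_dvd_hlvl_iff n (some i) L).mpr hi) (C.sq_not_dvd_hlvl n (some i) hL)
    P.mem_badPrimes_of_dvd P.datum A hA σ hσ
  have h1 : (P.rep σ).charpoly = (X - 1) ^ 2 := (Matrix.charpoly_toLin' (P.rep σ)).symm.trans h
  rw [Matrix.charpoly_fin_two] at h1
  have h0 := congrArg (Polynomial.eval 0) h1
  have h1' := congrArg (Polynomial.eval 1) h1
  simp at h0 h1'
  exact ⟨by linear_combination h0 - h1', h0⟩

end PointData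

end FermatAgent.RTLift.Setup
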