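import Fermat.Agent.RTLift.Galois.Defs
import Fermat.Agent.RTLift.LocalRings.Dichotomy
import Fermat.Agent.GalRep.Flat.Main
import Fermat.Agent.GalRep.Construct.Cyclotomic
import Fermat.Agent.TW.Tame
import Fermat.Agent.TW.Places
import Fermat.Agent.TW.FlatPush
import Fermat.Agent.LocalP.UnitRoot.Final
import Fermat.Agent.S19
import Fermat.Prelude.Def_GaloisRep_LocalConditions

/-!
# Local properties of the representation of one point

The representation of a point is read in a basis: at a prime outside the level it is unramified, at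
a prime of unipotent inertia it satisfies the tame relation, hence is unramified or special; at `p`
outside the level it is flat, and a unit root line gives an ordinary point.
-/

set_option autoImplicit false

noncomputable section

namespace FermatAgent.RTLift.Setup.PointsLocal

open scoped Pointwise
open IsLocalRing Matrix FermatAgent.DefRing FermatAgent.RTLift.LocalRings
open FermatAgent.GalRep (cycChar padicToRing)

local notation "Qb" => AlgebraicClosure ℚ
local notation "GQ" => AlgebraicClosure ℚ ≃ₐ[ℚ] AlgebraicClosure ℚ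

attribute [local instance] FermatAgent.RT.isGalois_algClosureRat

section Matrices

variable {R : Type} [CommRing R] [IsLocalRing R]

theorem det_frobenius {p : ℕ} [Fact p.Prime] (hpR : (p : R) ∈ maximalIdeal R)
    [IsAdicComplete (maximalIdeal R) R] {r : GQ →* Matrix (Fin 2) (Fin 2) R}
    (hdet : ∀ σ, (r σ).det = padicToRing hpR (cycChar p σ)) {q : ℕ} (hq : q.Prime) (hqp : q ≠ p)
    {A : ValuationSubring Qb} (hA : A.LiesOverPrime q) {φ : GQ} (hφ : A.IsFrobeniusAt φ q) :
    (r φ).det = (q : R) := by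
  rw [hdet, GalRep.cycChar_frobenius (p := p) hq hqp hA hφ, map_natCast]

omit [IsLocalRing R] in
/-- Unramified at a frame. -/
theorem sat_ur_of_unramified {r : GQ →* Matrix (Fin 2) (Fin 2) R} {q : ℕ} {c : R} {φ τ : GQ}
    (hdet : (r φ).det = (q : R)) (hτ : r τ = 1) : Sat .ur (q : R) c (r φ) (r τ - 1) :=
  sat_ur_iff.mpr ⟨sub_eq_zero.mpr hτ, hdet⟩

omit [IsLocalRing R] in
theorem map_mul_entry_mem {I J : Ideal R} {M N : Matrix (Fin 2) (Fin 2) R}
    (hM : ∀ a b, M a b ∈ I) (hN : ∀ a b, N a b ∈ J) (a b : Fin 2) : (M * N) a b ∈ I * J := by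
  rw [Matrix.mul_apply]
  exact Ideal.sum_mem _ fun c _ => Ideal.mul_mem_mul (hM a c) (hN c b)

theorem pow_sub_one_mem {p : ℕ} (hpR : (p : R) ∈ maximalIdeal R) {g : Matrix (Fin 2) (Fin 2) R}
    (hg : ∀ a b, (g - 1) a b ∈ maximalIdeal R) (k : ℕ) :
    ∀ a b, (g ^ p ^ k - 1) a b ∈ maximalIdeal R ^ (k + 1) := by
  induction k with
  | zero => simpa using hg
  | succ k ih =>
    intro a b
    set G := g ^ p ^ k
    have hG : (residue R).mapMatrix G = 1 := by
      rw [← (residue R).mapMatrix.map_one, ← sub_eq_zero, ← map_sub]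
      refine Matrix.ext fun i j => ?_
      rw [RingHom.mapMatrix_apply, Matrix.map_apply, Matrix.zero_apply, residue_eq_zero_iff]
      exact Ideal.pow_le_self (Nat.succ_ne_zero k) (ih i j)
    have hsum : ∀ i j, (∑ l ∈ Finset.range p, G ^ l) i j ∈ maximalIdeal R := by
      intro i j
      have h0 : (residue R).mapMatrix (∑ l ∈ Finset.range p, G ^ l) = 0 := by
        simp only [map_sum, map_pow, hG, one_pow, Finset.sum_const, Finset.card_range,
          nsmul_eq_mul, mul_one]
        rw [← map_natCast (residue R).mapMatrix]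
        refine Matrix.ext fun i j => ?_
        rw [RingHom.mapMatrix_apply, Matrix.map_apply, Matrix.zero_apply, residue_eq_zero_iff,
          Matrix.natCast_apply]
        split_ifs
        · exact hpR
        · rw [Nat.cast_zero]
          exact Ideal.zero_mem _
      rw [← residue_eq_zero_iff]
      exact congrFun (congrFun h0 i) j
    rw [pow_succ p k, pow_mul, ← geom_sum_mul, pow_succ']
    exact map_mul_entry_mem hsum ih a b

/-- Residually unipotent matrices have `p`-power order modulo every power of the maximal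
ideal. -/
theorem residual_pow_of_unipotent {p : ℕ} [Fact p.Prime] (hpR : (p : R) ∈ maximalIdeal R)
    {g : Matrix (Fin 2) (Fin 2) R} (htr : g.trace = 2) (hdet : g.det = 1) :
    ∀ a b, (g ^ p - 1) a b ∈ maximalIdeal R := by
  have hN : (g - 1) * (g - 1) = 0 := by
    rw [mul_self_eq]
    have t0 : (g - 1).trace = 0 := by
      rw [Matrix.trace_sub, htr, Matrix.trace_one]
      simp
    have d0 : (g - 1).det = 0 := by
      simp only [Matrix.det_fin_two, Matrix.trace_fin_two, Matrix.sub_apply, Matrix.one_apply_eq,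
        Matrix.one_apply_ne (show (0 : Fin 2) ≠ 1 by decide),
        Matrix.one_apply_ne (show (1 : Fin 2) ≠ 0 by decide), sub_zero] at htr hdet ⊢
      linear_combination hdet - htr
    rw [t0, d0, zero_smul, zero_smul, sub_zero]
  have hpow : ∀ k : ℕ, g ^ k = 1 + (k : R) • (g - 1) := by
    intro k
    induction k with
    | zero => simp
    | succ k ih =>
      rw [pow_succ, ih]
      nth_rewrite 2 [show g = 1 + (g - 1) from (add_sub_cancel 1 g).symm]
      rw [add_mul, one_mul, smul_mul_assoc, mul_add, mul_one, hN, add_zero, Nat.cast_succ,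
        add_smul, one_smul]
      abel
  intro a b
  rw [hpow, add_sub_cancel_left, Matrix.smul_apply, smul_eq_mul]
  exact Ideal.mul_mem_right _ _ hpR

/-- **The tame relation.** -/
theorem frob_relation [IsAdicComplete (maximalIdeal R) R] {p : ℕ} [Fact p.Prime]
    (hpR : (p : R) ∈ maximalIdeal R) {r : GQ →* Matrix (Fin 2) (Fin 2) R} (hr : IsCont r)
    {q : ℕ} (hq : q.Prime) (hqp : q ≠ p) {A : ValuationSubring Qb} (hA : A.LiesOverPrime q)
    (hres : ∀ σ ∈ A.inertiaSubgroupIn ℚ, ∃ n, ∀ a b,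
      (r σ ^ p ^ n - 1) a b ∈ maximalIdeal R)
    {φ : GQ} (hφ : A.IsFrobeniusAt φ q) {τ : GQ} (hτ : τ ∈ A.inertiaSubgroupIn ℚ) :
    r φ * r τ = r τ ^ q * r φ := by
  have hd : φ • A = A := MulAction.mem_stabilizer_iff.1 (TW.isFrobeniusAt_iff.1 hφ).1
  have hτ' : φ * τ * φ⁻¹ ∈ A.inertiaSubgroupIn ℚ := hd ▸ TW.conj_mem_inertia hτ
  have hrel : r (φ * τ * φ⁻¹) = r τ ^ q := by
    refine Matrix.ext fun a b => GalRep.eq_of_forall_sub_mem_pow fun k => ?_
    obtain ⟨L₀, hL₀, hL₀c⟩ := hr (k + 1)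
    let L := IntermediateField.normalClosure ℚ L₀ Qb
    have : FiniteDimensional ℚ L := normalClosure.is_finiteDimensional ℚ L₀ Qb
    have : Normal ℚ L := normalClosure.normal ℚ L₀ Qb
    let π : Matrix (Fin 2) (Fin 2) R →+* Matrix (Fin 2) (Fin 2) (R ⧸ maximalIdeal R ^ (k + 1)) :=
      (Ideal.Quotient.mk (maximalIdeal R ^ (k + 1))).mapMatrix
    let f : A.inertiaSubgroupIn ℚ →* (Matrix (Fin 2) (Fin 2) (R ⧸ maximalIdeal R ^ (k + 1)))ˣ :=
      ((π.toMonoidHom.comp r).comp (A.inertiaSubgroupIn ℚ).subtype).toHomUnits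
    have hf : ∀ σ, (f σ : Matrix (Fin 2) (Fin 2) (R ⧸ maximalIdeal R ^ (k + 1))) = π (r σ) :=
      fun σ => rfl
    have hπ1 : ∀ M : Matrix (Fin 2) (Fin 2) R,
        (∀ i j, (M - 1) i j ∈ maximalIdeal R ^ (k + 1)) → π M = 1 := by
      intro M hM
      rw [← π.map_one, ← sub_eq_zero, ← map_sub]
      refine Matrix.ext fun i j => ?_
      rw [RingHom.mapMatrix_apply, Matrix.map_apply, Matrix.zero_apply,
        Ideal.Quotient.eq_zero_iff_mem]
      exact hM i j
    have hL : ∀ σ : A.inertiaSubgroupIn ℚ, (∀ x ∈ L, (σ : GQ) x = x) → f σ = 1 := fun σ hσ =>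
      Units.ext (by
        rw [hf, Units.val_one]
        exact hπ1 _ (hL₀c _ fun x hx =>
          hσ x (IntermediateField.le_normalClosure L₀ hx)))
    have hord : ∀ σ, ∃ n, f σ ^ p ^ n = 1 := fun σ => by
      obtain ⟨n, hn⟩ := hres σ σ.2
      refine ⟨n + k, Units.ext ?_⟩
      rw [Units.val_pow_eq_pow_val, hf, Units.val_one, ← map_pow,
        show r σ ^ p ^ (n + k) = (r σ ^ p ^ n) ^ p ^ k by rw [← pow_mul, ← pow_add]]
      exact hπ1 _ (pow_sub_one_mem hpR hn k)
    have := (TW.tame_inertia hq Fact.out (Ne.symm hqp) hA L f hL hord).2 φ hφ ⟨τ, hτ⟩ ⟨_, hτ'⟩ rfl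
    have h1 := congrArg Units.val this
    rw [Units.val_pow_eq_pow_val, hf, hf, ← map_pow] at h1
    have h2 := congrFun (congrFun h1 a) b
    exact Ideal.pow_le_pow_right (Nat.le_succ k) (Ideal.Quotient.eq.mp h2)
  rw [← hrel, ← map_mul, ← map_mul, inv_mul_cancel_right]

/-- **Unipotent inertia is unramified or special.** -/
theorem sat_plain_of_unipotent [IsDomain R] [CharZero R] [IsAdicComplete (maximalIdeal R) R] {p : ℕ}
    [Fact p.Prime] (hpR : (p : R) ∈ maximalIdeal R) {r : GQ →* Matrix (Fin 2) (Fin 2) R}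
    (hr : IsCont r) {q : ℕ} (hq : q.Prime) (hqp : q ≠ p) {A : ValuationSubring Qb}
    (hA : A.LiesOverPrime q)
    (huni : ∀ σ ∈ A.inertiaSubgroupIn ℚ, (r σ).trace = 2 ∧ (r σ).det = 1)
    (c : R) {φ : GQ} (hφ : A.IsFrobeniusAt φ q) (hdet : (r φ).det = (q : R)) {τ : GQ}
    (hτ : τ ∈ A.inertiaSubgroupIn ℚ) :
    Sat .ur (q : R) c (r φ) (r τ - 1) ∨ ∃ ε, Sat (.st ε) (q : R) c (r φ) (r τ - 1) := by
  have hres : ∀ σ ∈ A.inertiaSubgroupIn ℚ, ∃ n, ∀ a b,
      (r σ ^ p ^ n - 1) a b ∈ maximalIdeal R := fun σ hσ => by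
    refine ⟨1, ?_⟩
    rw [pow_one]
    exact residual_pow_of_unipotent hpR (huni σ hσ).1 (huni σ hσ).2
  refine sat_ur_or_st hq.two_le c hdet ?_ ?_ ?_
  · rw [add_sub_cancel, (huni τ hτ).2]
  · rw [add_sub_cancel, (huni τ hτ).1]
  · rw [add_sub_cancel]
    exact frob_relation hpR hr hq hqp hA hres hφ hτ

/-- A line with inertia trivial on the quotient is an ordinary point. -/
theorem isOrdPoint_of_line {ρ : GaloisRepAdic R} (b b' : Module.Basis (Fin 2) R ρ.V)
    {A : ValuationSubring Qb} {φ : GQ} {u : R}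
    (hD : ∀ σ ∈ A.decompositionSubgroup ℚ, ρ.ρ σ (b' 0) ∈ Submodule.span R {b' 0})
    (hI : ∀ σ ∈ A.inertiaSubgroupIn ℚ, ∀ x, ρ.ρ σ x - x ∈ Submodule.span R {b' 0})
    (hF : ∀ x, ρ.ρ φ x - u • x ∈ Submodule.span R {b' 0}) :
    Galois.IsOrdPoint (matrixOf b ρ.ρ) A φ u := by
  set w := b.equivFun (b' 0) with hw
  have hqc : ∀ (x : ρ.V) (v : Fin 2 → R), x ∈ Submodule.span R {b' 0} →
      Galois.qcoord w (v + b.equivFun x) = Galois.qcoord w v := by
    intro x v hx
    obtain ⟨c, rfl⟩ := Submodule.mem_span_singleton.mp hx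
    rw [map_smul, ← hw]
    simp [Galois.qcoord]
    ring
  have hmul : ∀ σ (x : ρ.V), matrixOf b ρ.ρ σ *ᵥ b.equivFun x = b.equivFun (ρ.ρ σ x) :=
    fun σ x => (equivFun_apply_matrixOf b ρ.ρ σ x).symm
  refine ⟨w, ?_, fun σ hσ => ?_, fun σ hσ v => ?_, fun v => ?_⟩
  · exact fun h => b'.ne_zero 0 (b.equivFun.injective (h.trans (map_zero b.equivFun).symm))
  · have := hqc _ 0 (hD σ hσ)
    rw [zero_add, ← hmul] at this
    rw [this]
    simp [Galois.qcoord]
  · obtain ⟨x, rfl⟩ := b.equivFun.surjective v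
    rw [hmul, show ρ.ρ σ x = x + (ρ.ρ σ x - x) by abel, map_add]
    exact hqc _ _ (hI σ hσ x)
  · obtain ⟨x, rfl⟩ := b.equivFun.surjective v
    rw [hmul, show ρ.ρ φ x = u • x + (ρ.ρ φ x - u • x) by abel, map_add, hqc _ _ (hF x), map_smul]
    simp [Galois.qcoord]
    ring

end Matrices

section Points

variable {p N : ℕ} [Fact p.Prime] [NeZero N] {S : Finset ℕ} {R : Type} [CommRing R]
  [IsLocalRing R] [IsNoetherianRing R] [IsAdicComplete (maximalIdeal R) R]
  [Finite (ResidueField R)]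

omit [IsNoetherianRing R] in
/-- **A point of a level prime to `p` is flat.** -/
theorem isFlatAt_pointDatum (hpR : (p : R) ∈ maximalIdeal R) (hpN : ¬ p ∣ N)
    (hNS : ∀ q : ℕ, q.Prime → q ∣ N → q ∈ S)
    (H : GalRep.PointDatum N (↑S : Set ℕ) R) : H.ρ.IsFlatAt p := by
  have hS : ∀ q : ℕ, q.Prime → q ∣ N → q ∈ (↑S : Set ℕ) := fun q hq hqN => hNS q hq hqN
  obtain ⟨D⟩ := ModCurveTorsion.heckeTorsionInput N p Fact.out (↑S : Set ℕ) hS
  exact GalRep.Flat.pointDatum_isFlatAt
    (GalRep.heckeTateDataOf D (ES.torsionUnramified N p) (ES.torsionFrobQuadratic N p) hS)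
    GalRep.frobDense
    (GalRep.Flat.nonempty_levelModel D (ES.torsionUnramified N p)
      (ES.torsionFrobQuadratic N p) hS fun k => Fermat.Agent.S19.result N p hpN k) hpR H

end Points

end FermatAgent.RTLift.Setup.PointsLocal
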