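import Fermat.Agent.RTLift.Galois.StrictRel
import Fermat.Agent.RTLift.Setup.Points.Datum
import Fermat.Agent.RTLift.Setup.Points.Lemmas
import Fermat.Agent.BadRed.AtP.TorsionMain
import Fermat.Agent.BadRed.AtP.ToricHecke
import Fermat.Agent.BadRed.AtP.Ordinary
import Fermat.Agent.BadRed.AtP.DatumFacts
import Fermat.Agent.LocalP.UnitRoot.Relations

/-!
# Points new at `p` are strict there; old points are flat

If the character of a point does not kill the operators vanishing on the forms of level prime to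
`p`, the toric relation of the Tate module holds in its representation, which is then strict.
Otherwise the point is a point of the level prime to `p`, hence flat.
-/

set_option autoImplicit false
set_option maxHeartbeats 1600000

noncomputable section

namespace FermatAgent.RTLift.Setup

open IsLocalRing CuspForm
open FermatAgent.GalRep FermatAgent.BadRed FermatAgent.BadRed.AtP FermatAgent.BadRed.Semistable
  FermatAgent.BadRed.Carayol FermatAgent.LocalP.UnitRoot

local notation "Qb" => AlgebraicClosure ℚ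
local notation "GQ" => AlgebraicClosure ℚ ≃ₐ[ℚ] AlgebraicClosure ℚ

/-- **Strictness from a character not killing the operators vanishing on old forms.** -/
theorem isStrictPoint_of_ker_oldRes {O S : Type} [CommRing O] [CommRing S] [IsDomain S]
    [IsDiscreteValuationRing S] [IsAdicComplete (maximalIdeal S) S] [Algebra O S] {p M' : ℕ}
    [Fact p.Prime] [NeZero M'] [NeZero (p * M')] (hp2 : p ≠ 2) (hpS : (p : S) ∈ maximalIdeal S)
    {χ : GQ →* O} {rep : GQ →* Matrix (Fin 2) (Fin 2) S} (hc : DefRing.IsCont rep)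
    (hdet : ∀ σ, (rep σ).det = algebraMap O S (χ σ))
    (hirr : (DefRing.toAdic rep hc).residual.IsAbsolutelyIrreducible) (hco : p.Coprime M')
    {S₁ S₂ : Finset ℕ} (hMS : ∀ q : ℕ, q.Prime → q ∣ p * M' → q ∈ (↑S₁ : Set ℕ))
    (π : heckeAlgebra (p * M') 2 (↑S₁ : Set ℕ) →+* S)
    (hρ : HasFrobCharpolys π (DefRing.toAdic rep hc) S₂) {t : heckeAlgebra (p * M') 2 (↑S₁ : Set ℕ)}
    (ht : oldRes hco hMS subset_rfl t = 0) (hπt : π t ≠ 0) {A : ValuationSubring Qb}
    (hA : A.LiesOverPrime p) : Galois.IsStrictPoint χ rep A := by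
  classical
  set ρ := DefRing.toAdic rep hc
  set D := modelTate (p * M') p hMS
  set ψ := padicToRing hpS
  have hψ : ∀ σ, ψ (cycChar p σ) = algebraMap O S (χ σ) := fun σ => by
    rw [← det_eq_cycChar D hpS hp2 π ρ hρ σ, ← hdet]
    exact LinearMap.det_toLin' _
  obtain ⟨φ, hφ⟩ := RT.exists_isFrobeniusAt (Fact.out : p.Prime) hA
  obtain ⟨σ₀, hσ₀, hunit⟩ := exists_inertia_cycChar_sub_one (p := p) hp2 hA
  have h₀ : algebraMap O S (χ σ₀) ≠ 1 := fun h => by
    have h1 := hunit.map ψ
    rw [map_sub, map_one, hψ, h, sub_self] at h1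
    exact not_isUnit_zero h1
  refine Galois.isStrictPoint_of_rel hc hdet hA hφ hσ₀ h₀ fun σ hσ τ hτ => ?_
  have hkill : ToricKill hco σ τ := by
    rcases hσ with hσ | rfl
    · exact torsionToric hp2 hco A hA σ hσ τ hτ
    · refine torsionToricFrobSq hp2 hco hA ⟨mul_mem hφ.mem_decompositionSubgroup
        hφ.mem_decompositionSubgroup, fun y => ?_⟩ hτ
      rw [show (⟨φ * φ, _⟩ : A.decompositionSubgroup ℚ) =
        ⟨φ, hφ.mem_decompositionSubgroup⟩ * ⟨φ, hφ.mem_decompositionSubgroup⟩ from rfl,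
        mul_smul, hφ.smul_residue_eq, hφ.smul_residue_eq, ← pow_mul, sq]
  have h := adicCombH_eq_zero D hpS π ρ frobDense hρ hirr
    (Finsupp.single (σ * τ, t) 1 - Finsupp.single (σ, t) 1 -
      Finsupp.single (τ, t) (cycChar p σ) + Finsupp.single ((1 : GQ), t) (cycChar p σ)) (by
    have h0 := hecMat_of_kill hco hMS hkill ht
    simp only [map_add, map_sub, tateCombH, Finsupp.linearCombination_single, one_smul, map_mul,
      map_one, mul_one]
    rw [← h0]
    simp only [mul_sub, sub_mul, mul_one, one_mul, smul_mul_assoc, mul_smul_comm, ← mul_assoc]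
    abel)
  rw [map_add, map_sub, map_sub, adicCombH_single, adicCombH_single, adicCombH_single,
    adicCombH_single, map_one, one_mul, hψ] at h
  have h2 : π t • rep (σ * τ) - π t • rep σ - (algebraMap O S (χ σ) * π t) • rep τ +
      (algebraMap O S (χ σ) * π t) • rep 1 = 0 := by
    refine (Matrix.toLinAlgEquiv' (R := S) (n := Fin 2)).injective ?_
    rw [map_zero, map_add, map_sub, map_sub, map_smul, map_smul, map_smul, map_smul]
    exact h
  have h' : π t • ((rep σ - algebraMap O S (χ σ) • 1) * (rep τ - 1)) = 0 := by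
    refine Eq.trans ?_ h2
    simp only [map_mul, map_one, mul_sub, sub_mul, mul_one, one_mul, smul_mul_assoc, smul_sub,
      smul_smul, mul_comm (π t)]
    abel
  exact (smul_eq_zero.mp h').resolve_left hπt

/-- **A point which is old at `p` is flat there.** -/
theorem isFlatAt_of_old {T : Type} [CommRing T] [IsLocalRing T] [IsNoetherianRing T]
    [IsAdicComplete (maximalIdeal T) T] [Finite (ResidueField T)] {p M' : ℕ} [Fact p.Prime]
    [NeZero M'] [NeZero (p * M')] (hpT : (p : T) ∈ maximalIdeal T) (hco : p.Coprime M')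
    {S : Finset ℕ} (hMS : ∀ q : ℕ, q.Prime → q ∣ p * M' → q ∈ (↑S : Set ℕ))
    (H : PointDatum (p * M') (↑S : Set ℕ) T)
    (hold : ∀ t, oldRes hco hMS subset_rfl t = 0 → H.π t = 0) : H.ρ.IsFlatAt p := by
  have hS' : ∀ q : ℕ, q.Prime → q ∣ M' → q ∈ S :=
    fun q hq h => hMS q hq (dvd_mul_of_dvd_right h p)
  let H' : PointDatum M' (↑S : Set ℕ) T :=
    { π := RingHom.liftOfSurjective (oldRes hco hMS subset_rfl) (oldRes_surjective hco hMS)
        ⟨H.π, fun t ht => hold t ht⟩
      ρ := H.ρ
      charpoly_frob := fun l hl hlN hlS B hB σ hσ => by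
        have hlM : ¬ l ∣ p * M' := fun e => hlS (hMS l hl e)
        rw [H.charpoly_frob l hl hlM hlS B hB σ hσ,
          ← oldRes_T hco hMS subset_rfl hl hlM hlS hlN hlS, RingHom.liftOfSurjective_comp_apply]
      residual_absIrr := H.residual_absIrr }
  exact PointsLocal.isFlatAt_pointDatum hpT ((Nat.Prime.coprime_iff_not_dvd Fact.out).mp hco) hS' H'

/-- A point datum at a level exactly divisible by `p`, not flat at `p`, is strict there. -/
theorem isStrictPoint_of_not_flat {O T : Type} [CommRing O] [CommRing T] [IsDomain T]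
    [IsDiscreteValuationRing T] [IsAdicComplete (maximalIdeal T) T] [Finite (ResidueField T)]
    [Algebra O T] {p : ℕ} [Fact p.Prime] (hp2 : p ≠ 2) (hpT : (p : T) ∈ maximalIdeal T)
    {χ : GQ →* O} {N : ℕ} [NeZero N] (hd : p ∣ N) (h2 : ¬ p ^ 2 ∣ N) {S : Finset ℕ}
    (hS : ∀ q : ℕ, q.Prime → q ∣ N → q ∈ (↑S : Set ℕ))
    {rep : GQ →* Matrix (Fin 2) (Fin 2) T} (hc : DefRing.IsCont rep)
    (hdet : ∀ σ, (rep σ).det = algebraMap O T (χ σ))
    (H : PointDatum N (↑S : Set ℕ) T) (hH : H.ρ = DefRing.toAdic rep hc)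
    (hnf : ¬ (DefRing.toAdic rep hc).IsFlatAt p) {A : ValuationSubring Qb}
    (hA : A.LiesOverPrime p) : Galois.IsStrictPoint χ rep A := by
  obtain ⟨M', rfl⟩ := hd
  have hco : p.Coprime M' := (Nat.Prime.coprime_iff_not_dvd Fact.out).mpr fun h =>
    h2 (sq p ▸ mul_dvd_mul_left p h)
  have : NeZero M' := ⟨fun h => NeZero.ne (p * M') (by rw [h, mul_zero])⟩
  by_cases hold : ∀ t, oldRes hco hS subset_rfl t = 0 → H.π t = 0
  · exact absurd (hH ▸ isFlatAt_of_old hpT hco hS H hold) hnf
  · push Not at hold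
    obtain ⟨t, ht, ht0⟩ := hold
    exact isStrictPoint_of_ker_oldRes (S₂ := S) hp2 hpT hc hdet (hH ▸ H.residual_absIrr) hco hS H.π
      (fun l hl hlN hlS _ B hB σ hσ => hH ▸ H.charpoly_frob l hl hlN hlS B hB σ hσ) ht ht0 hA

end FermatAgent.RTLift.Setup
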