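import Fermat.Agent.RTLift.Setup.PointData
import Fermat.Agent.RTLift.LocalRings.Dichotomy
import Fermat.Agent.RTLift.Setup.Points.Lemmas
import Fermat.Agent.RTLift.Setup.Points.Datum
import Fermat.Agent.RTLift.Setup.Points.StrictCore
import Fermat.Agent.LocalP.UnitRoot.Final
import Fermat.Agent.TW.Flat.Val

/-!
# Local properties of the points of a level

At an auxiliary prime a point is unramified or Steinberg; at `p` it is flat when `p` does not divide
the level, has a unit root when moreover residually ordinary, and is strict when it is not flat.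
-/

set_option autoImplicit false

noncomputable section

namespace FermatAgent.RTLift.Setup

open IsLocalRing Matrix FermatAgent.RTLift.LocalRings FermatAgent.RTLift.Engine

local notation "Qb" => AlgebraicClosure ℚ
local notation "GQ" => AlgebraicClosure ℚ ≃ₐ[ℚ] AlgebraicClosure ℚ

variable {O : Type} [CommRing O] [IsDomain O] [IsDiscreteValuationRing O]
  [IsAdicComplete (maximalIdeal O) O]
  {p r : ℕ} [Fact p.Prime] [Algebra (ZMod p) (ResidueField O)] {I : Type} [Fintype I]
  {C : Ctx O p r I} {n : ℕ} {L : List (Option I)}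

namespace PointData

variable (P : PointData C n L)

/-- The residual line of an ordinary line of the residual representation. -/
theorem exists_residual_line {A : ValuationSubring Qb} {v : Fin 2 → ResidueField O}
    (hv : TW.OrdLine C.ρ A v) :
    ∃ v' : (DefRing.toAdic P.rep P.cont).residual.V, ∀ σ ∈ A.inertiaSubgroupIn ℚ, ∀ w,
      (DefRing.toAdic P.rep P.cont).residual.ρ σ w - w ∈
        Submodule.span (ResidueField P.A) {v'} := by
  obtain ⟨b, Q, hQ, hM, hQc⟩ := P.isLift.exists_conj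
  refine ⟨b.equivFun.symm (Q⁻¹ *ᵥ fun i => P.resMap (v i)), fun σ hσ w => ?_⟩
  choose c hc using fun j : Fin 2 => hv.quotient σ hσ (Pi.single j 1)
  have hQσ : Q * (P.rep σ).map (residue P.A) =
      (C.ρ σ : Matrix (Fin 2) (Fin 2) (ResidueField O)).map P.resMap * Q := hQc σ
  set M := (P.rep σ).map (residue P.A)
  set x := b.equivFun w
  set F := (C.ρ σ : Matrix (Fin 2) (Fin 2) (ResidueField O)).map P.resMap
  have hF1 : ∀ y : Fin 2 → ResidueField P.A,
      F *ᵥ y - y = (∑ j, P.resMap (c j) * y j) • fun i => P.resMap (v i) := by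
    intro y
    have hN : ∀ i j, F i j - (1 : Matrix (Fin 2) (Fin 2) (ResidueField P.A)) i j =
        P.resMap (c j) * P.resMap (v i) := fun i j => by
      have h := congrArg P.resMap (congrFun (hc j) i)
      rw [Pi.sub_apply, Matrix.mulVec_single_one, Pi.smul_apply, smul_eq_mul, map_mul, map_sub] at h
      rw [← h]
      congr 1
      rcases eq_or_ne i j with rfl | hij
      · simp
      · simp [Matrix.one_apply_ne hij, hij]
    nth_rewrite 2 [← Matrix.one_mulVec y]
    rw [← Matrix.sub_mulVec]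
    funext i
    simp only [Matrix.mulVec, dotProduct, Matrix.sub_apply, hN, Pi.smul_apply, smul_eq_mul,
      Finset.sum_mul]
    exact Finset.sum_congr rfl fun j _ => by ring
  have hwσ : b.equivFun ((DefRing.toAdic P.rep P.cont).residual.ρ σ w) = M *ᵥ x := by
    rw [show M = _ from (hM σ).symm]
    exact (LinearMap.toMatrix_mulVec_repr b b _ w).symm
  refine Submodule.mem_span_singleton.mpr
    ⟨∑ j, P.resMap (c j) * (Q *ᵥ x) j, b.equivFun.injective ?_⟩
  rw [map_smul, LinearEquiv.apply_symm_apply, map_sub, hwσ, ← Matrix.mulVec_smul, ← hF1,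
    Matrix.mulVec_sub]
  simp only [Matrix.mulVec_mulVec]
  rw [← hQσ, ← Matrix.mul_assoc, Matrix.nonsing_inv_mul _ hQ, Matrix.one_mul,
    Matrix.one_mulVec]

/-- The Frobenius polynomials of the point at the untwisted level. -/
theorem hasFrobCharpolys :
    LocalP.UnitRoot.HasFrobCharpolys (N := C.hlvl n L) P.χ (DefRing.toAdic P.rep P.cont)
      P.badPrimes := by
  intro ℓ hℓ hℓN hℓ₀ hℓS B hB σ hσ
  have hℓl : ¬ ℓ ∣ C.lvl n L := fun h => hℓN (h.mul_right _)
  have hℓp : ℓ ≠ p := fun e => hℓS (Finset.mem_insert.mpr (Or.inl e))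
  refine (Matrix.charpoly_toLin' (P.rep σ)).trans ?_
  rw [Matrix.charpoly_fin_two, P.det_frob hℓ hℓp hB hσ, P.trace_frob_χ hℓ hℓl hℓp hB hσ]

/-- Residually, inertia at `p` does not act trivially. -/
theorem exists_residual_ne_one {A : ValuationSubring Qb} (hA : A.LiesOverPrime p) :
    ∃ σ ∈ A.inertiaSubgroupIn ℚ, (DefRing.toAdic P.rep P.cont).residual.ρ σ ≠ 1 := by
  obtain ⟨σ, hσ, hc⟩ := TW.Flat.exists_inertia_cycloChar (p := p) hA (-1)
  refine ⟨σ, hσ, fun h => TW.two_ne_zero_of (k := ResidueField O) C.twHyp.ne_two ?_⟩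
  obtain ⟨b, hb⟩ := DefRing.residual_toAdic_matrices P.rep P.cont
  have h1 : (P.rep σ).map (residue P.A) = 1 := by
    rw [← LinearMap.toMatrix_one b, ← h]
    exact (DFunLike.congr_fun hb σ).symm
  have h2 := P.residue_det σ
  rw [RingHom.map_det, RingHom.mapMatrix_apply, h1, Matrix.det_one, C.twHyp.detCyclo, hc,
    Units.val_neg, Units.val_one, map_neg, map_one, map_neg, map_one] at h2
  have h3 : P.resMap (2 : ResidueField O) = 0 := by
    rw [map_ofNat]
    linear_combination h2
  exact (map_eq_zero P.resMap).mp h3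

theorem sat_ur (i : I) (hi : some i ∉ L) :
    Sat .ur (C.D.q i : P.A) (algebraMap O P.A (C.D.c i))
      (P.rep (C.Fr.frame i).frob) (P.rep (C.Fr.frame i).gen - 1) := by
  have hq : ¬ (C.Fr.q i : ℕ) ∣ C.lvl n L := fun h => hi ((C.place_dvd_lvl_iff n (some i) L).mp h)
  rw [C.D_q]
  exact PointsLocal.sat_ur_of_unramified
    (P.det_frob (C.Fr.q i).2 (C.Fr.ne i) (C.Fr.frame i).liesOver (C.Fr.frame i).isFrobenius)
    (P.unramified _ (C.Fr.ne i) hq _ (C.Fr.frame i).liesOver _ (C.Fr.frame i).isTameGen.1)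

theorem sat_plain (hL : L.Nodup) (i : I) :
    Sat .ur (C.D.q i : P.A) (algebraMap O P.A (C.D.c i))
        (P.rep (C.Fr.frame i).frob) (P.rep (C.Fr.frame i).gen - 1) ∨
      ∃ ε, Sat (.st ε) (C.D.q i : P.A) (algebraMap O P.A (C.D.c i))
        (P.rep (C.Fr.frame i).frob) (P.rep (C.Fr.frame i).gen - 1) := by
  by_cases hi : some i ∈ L
  · rw [C.D_q]
    exact PointsLocal.sat_plain_of_unipotent P.natCast_mem_maximalIdeal P.cont (C.Fr.q i).2
      (C.Fr.ne i) (C.Fr.frame i).liesOver
      (fun σ hσ => P.unipotent hL i hi (C.Fr.frame i).liesOver hσ) _ (C.Fr.frame i).isFrobenius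
      (P.det_frob (C.Fr.q i).2 (C.Fr.ne i) (C.Fr.frame i).liesOver (C.Fr.frame i).isFrobenius)
      (C.Fr.frame i).isTameGen.1
  · exact Or.inl (P.sat_ur i hi)

/-- Points of a level prime to `p` are flat at `p`. -/
theorem isFlatAt (hL : none ∉ L) : (DefRing.toAdic P.rep P.cont).IsFlatAt p := by
  exact PointsLocal.isFlatAt_pointDatum P.natCast_mem_maximalIdeal
    (fun h => hL ((C.place_dvd_hlvl_iff n none L).mp h)) P.mem_badPrimes_of_dvd P.datum

/-- The unit root at a level prime to `p`, residually ordinary. -/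
theorem exists_unitRoot (hgood : ¬ p ∣ C.lvl n L) {A : ValuationSubring Qb}
    (hA : A.LiesOverPrime p) {φ : GQ} (hφ : A.IsFrobeniusAt φ p) {v : Fin 2 → ResidueField O}
    (hv : TW.OrdLine C.ρ A v) :
    ∃ z : P.A, Galois.IsOrdPoint P.rep A φ z ∧
      P.x (MvPolynomial.C (C.κv n (ExtCitation.pPrime p)) *
        MvPolynomial.X ⟨ExtCitation.pPrime p, hgood, (Fact.out : p.Prime).ne_zero⟩) * z =
          z ^ 2 + (p : P.A) := by
  obtain ⟨b', hD, hI, u, -, hu, hF⟩ := LocalP.UnitRoot.exists_unitRoot_line (N := C.hlvl n L)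
    (S₀ := (C.hlvl n L).primeFactors) (Fact.out : p.Prime) C.twHyp.ne_two
    (C.not_dvd_hlvl Fact.out hgood)
    (fun q hq hd => Nat.mem_primeFactors.mpr ⟨hq, hd, NeZero.ne _⟩)
    (C.notMem_primeFactors_hlvl Fact.out hgood) P.natCast_mem_maximalIdeal P.χ
    (DefRing.toAdic P.rep P.cont) P.badPrimes
    P.hasFrobCharpolys
    P.residual_absIrr hA (P.exists_residual_line hv) (P.exists_residual_ne_one hA)
  refine ⟨u, ?_, ?_⟩
  · have hb : DefRing.matrixOf (Pi.basisFun P.A (Fin 2)) (DefRing.toAdic P.rep P.cont).ρ =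
        P.rep := MonoidHom.ext fun σ => LinearMap.toMatrix'_toLin' (P.rep σ)
    have key := PointsLocal.isOrdPoint_of_line (ρ := DefRing.toAdic P.rep P.cont) (A := A) (φ := φ)
      (u := u) (Pi.basisFun P.A (Fin 2)) b' hD hI (hF φ hφ)
    exact (congrArg (fun r => Galois.IsOrdPoint r A φ u) hb).mp key
  · rw [← P.χ_T ⟨ExtCitation.pPrime p, hgood, (Fact.out : p.Prime).ne_zero⟩]
    have h2 : ∀ t : P.A, u ^ 2 - t * u + (p : P.A) = 0 → t * u = u ^ 2 + (p : P.A) := fun t h => by
      linear_combination -h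
    exact h2 _ hu

/-- A point which is not flat at `p` is strict at `p`. -/
theorem isStrictPoint (hL : L.Nodup) {A : ValuationSubring Qb} (hA : A.LiesOverPrime p)
    (hnf : ¬ (DefRing.toAdic P.rep P.cont).IsFlatAt p) :
    Galois.IsStrictPoint C.χ P.rep A := by
  refine isStrictPoint_of_not_flat C.twHyp.ne_two P.natCast_mem_maximalIdeal
    ((C.place_dvd_hlvl_iff n none L).mpr ?_) (C.sq_not_dvd_hlvl n none hL) P.mem_badPrimes_of_dvd
    P.cont P.det_eq P.datum rfl hnf hA
  by_contra hi
  exact hnf (P.isFlatAt hi)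

end PointData

end FermatAgent.RTLift.Setup
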