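import Fermat.Agent.RTLift.Setup.Points.StrictNew

/-!
# A point which is new at `p`
-/

set_option autoImplicit false

noncomputable section

namespace FermatAgent.RTLift.Setup

open IsLocalRing FermatAgent.RTLift.Modules FermatAgent.RTLift.Engine CuspForm

local notation "Qb" => AlgebraicClosure ℚ

variable {O : Type} [CommRing O] [IsDomain O] [IsDiscreteValuationRing O]
  [IsAdicComplete (maximalIdeal O) O] [Finite (ResidueField O)] [CharZero O]
  {p r : ℕ} [Fact p.Prime] [Algebra (ZMod p) (ResidueField O)] {I : Type} [Fintype I]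
  {C : Ctx O p r I} {n : ℕ} {L : List (Option I)}

/-- A point with `U = ±1` at `p` is strict at `p`. -/
theorem isStrictPoint_of_sq_eq_one (hi : none ∉ L) (hL : C.Admissible (none :: L))
    (pt : LvlPt C n (none :: L)) (hres : IsResidualPoint pt)
    (hker : ∀ s, (∀ y ∈ C.V n (none :: L), heckeHom (R := Diamond O r p n)
      (C.modulus_dvd_lvl n (none :: L)) (C.θ n) (Diamond O r p n)
        (id : Nat.Primes → Nat.Primes) s y = 0) → pt.x s = 0)
    (hsq : pt.x (MvPolynomial.C (C.κv n (C.place none)) * MvPolynomial.X (C.place none)) ^ 2 = 1)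
    {A : ValuationSubring Qb} (hA : A.LiesOverPrime p) :
    Galois.IsStrictPoint C.χ (PointData.ofFamPoint pt hres).rep A := by
  set P := PointData.ofFamPoint pt hres
  obtain ⟨M, hM, g, hg, hMN, hpM, hp2M, hsys⟩ := exists_newform_of_sq_eq_one hi pt hres hker hsq hL
  refine P.isStrictPoint_of_newform hg hMN (fun Q => ?_) hpM hp2M hA
  have h : (fun l : Good (C.lvl n (none :: L)) 0 =>
      P.x (MvPolynomial.C (C.κv n l.1) * MvPolynomial.X l)) = fun l =>
      pt.x (MvPolynomial.C (C.κv n l.1) * MvPolynomial.X l.1) := funext fun l => by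
    show pt.x (MvPolynomial.rename _ _) = _
    rw [map_mul (MvPolynomial.rename _), MvPolynomial.rename_C, MvPolynomial.rename_X]
  rw [h]
  exact hsys Q

end FermatAgent.RTLift.Setup
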