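import Fermat.Agent.RTLift.Setup.Points.NewForm
import Fermat.Agent.RTLift.Old.Lift

/-!
# The points detecting the quotient by the two degeneracy images at a new place
-/

set_option autoImplicit false

noncomputable section

namespace FermatAgent.RTLift.Setup

open IsLocalRing FermatAgent.RTLift.Modules FermatAgent.RTLift.Engine FermatAgent.RTLift.Systems
  FermatAgent.RTLift.Old CongruenceSubgroup
open scoped MatrixGroups

section Identity

variable {Λ : Type} [CommRing Λ] {M₀ M q : ℕ} [NeZero q] [NeZero (M * q)] (h : M₀ ∣ M)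
  (θ : (ZMod M₀)ˣ →* Λ) {A : Type} [AddCommGroup A] [Module Λ A] {x y : ℤ}
  (hxy : x * q - y * M = 1) (hq : q.Prime) (hqM : ¬ q ∣ M)

include hq hqM in
/-- `U_q` in level `M q` is minus Atkin–Lehner up to the degeneracy image. -/
theorem heckeU_eq_sub_atkin (z : H1 (levelChar (h.mul_right q) θ) A) :
    heckeU (h.mul_right q) θ A (dvd_mul_left q M) z =
      degI h (h.mul_right q) θ A (dvd_mul_right M q)
        (trace h (h.mul_right q) θ A (atkin h θ A hxy z)) - atkin h θ A hxy z := by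
  have h1 := degI_trace h θ hxy hq hqM (atkin h θ A hxy z)
  rw [atkin_atkin, map_smul, ← smul_add, (isUnit_alScalar h θ hxy).smul_left_cancel] at h1
  rw [h1, add_sub_cancel_left]

include hq hqM in
/-- `U_q² = θ(q)⁻¹` up to the two degeneracy images. -/
theorem heckeU_heckeU (z : H1 (levelChar (h.mul_right q) θ) A) :
    heckeU (h.mul_right q) θ A (dvd_mul_left q M)
        (heckeU (h.mul_right q) θ A (dvd_mul_left q M) z) - alScalar h θ hxy • z =
      alpha h θ A hxy (trace h (h.mul_right q) θ A (atkin h θ A hxy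
          (heckeU (h.mul_right q) θ A (dvd_mul_left q M) z)),
        -trace h (h.mul_right q) θ A (atkin h θ A hxy z)) := by
  have h1 := congrArg (atkin h θ A hxy) (heckeU_eq_sub_atkin h θ hxy hq hqM z)
  rw [map_sub, atkin_degI, atkin_atkin] at h1
  rw [heckeU_eq_sub_atkin h θ hxy hq hqM (heckeU (h.mul_right q) θ A (dvd_mul_left q M) z), h1,
    alpha_apply, map_neg]
  abel

include hq hqM in
theorem heckeU_alpha (a b : H1 (levelChar h θ) A) :
    heckeU (h.mul_right q) θ A (dvd_mul_left q M) (alpha h θ A hxy (a, b)) =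
      alpha h θ A hxy (trace h (h.mul_right q) θ A (atkin h θ A hxy (alpha h θ A hxy (a, b))) -
        alScalar h θ hxy • b, -a) := by
  rw [heckeU_eq_sub_atkin h θ hxy hq hqM]
  simp only [alpha_apply, map_add, atkin_degI, atkin_degD, map_smul, map_sub, map_neg]
  abel

end Identity

section New

variable {O : Type} [CommRing O] [IsLocalRing O] [IsDomain O] [IsNoetherianRing O] {Λ : Type}
  [CommRing Λ] [Algebra O Λ] [Module.Finite O Λ] {M₀ M q : ℕ} [NeZero q] [NeZero (M * q)]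
  (h : M₀ ∣ M) (θ : (ZMod M₀)ˣ →* Λ) {J : Type} (pr : J → Nat.Primes) (ξ : J → ResidueField O)
  {x y : ℤ} (hxy : x * q - y * M = 1) (hq : q.Prime) (hqM : ¬ q ∣ M) (hpr : ∀ j, (pr j : ℕ) ≠ q)

omit [IsDomain O] [IsNoetherianRing O] [Module.Finite O Λ] in
include hq hqM hpr in
/-- The degeneracy image in the local part is stable under the Hecke operator of a prime. -/
theorem heckeOp_alpha_localH1 (l : Nat.Primes) {a b : H1 (levelChar h θ) Λ}
    (ha : a ∈ localH1 h θ Λ pr ξ) (hb : b ∈ localH1 h θ Λ pr ξ) :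
    ∃ a' ∈ localH1 h θ Λ pr ξ, ∃ b' ∈ localH1 h θ Λ pr ξ,
      heckeOp (h.mul_right q) θ Λ l (alpha h θ Λ hxy (a, b)) = alpha h θ Λ hxy (a', b') := by
  by_cases hl : (l : ℕ) = q
  · obtain rfl : l = ⟨q, hq⟩ := Subtype.ext hl
    refine ⟨_, Submodule.sub_mem _ (trace_mem_localH1 h θ hq hpr
      (atkin_mem_localH1 h θ hxy hq hpr (alpha_mem_localH1 h θ hxy hq hpr ha hb)))
      (Submodule.smul_mem _ (alScalar h θ hxy) hb), -a, Submodule.neg_mem _ ha, ?_⟩
    rw [heckeOp_of_dvd (h.mul_right q) θ Λ (l := ⟨q, hq⟩) (dvd_mul_left q M)]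
    exact heckeU_alpha h θ hxy hq hqM a b
  · refine ⟨_, heckeOp_mem_localH1 h θ pr ξ l ha, _, heckeOp_mem_localH1 h θ pr ξ l hb, ?_⟩
    rw [alpha_apply, alpha_apply, map_add,
      degI_heckeOp h θ (fun _ : Unit => l) hq (fun _ => hl) (),
      degD_heckeOp h θ (fun _ : Unit => l) hq (fun _ => hl) (coprime_of_bezout hxy h) ()]

omit [IsDomain O] [IsNoetherianRing O] [Module.Finite O Λ] in
include hq hqM hpr in
/-- The degeneracy image in the local part is stable under all Hecke operators. -/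
theorem heckeHom_alpha_localH1 (s : MvPolynomial Nat.Primes Λ) {a b : H1 (levelChar h θ) Λ}
    (ha : a ∈ localH1 h θ Λ pr ξ) (hb : b ∈ localH1 h θ Λ pr ξ) :
    ∃ a' ∈ localH1 h θ Λ pr ξ, ∃ b' ∈ localH1 h θ Λ pr ξ,
      heckeHom (R := Λ) (h.mul_right q) θ Λ (id : Nat.Primes → Nat.Primes) s
        (alpha h θ Λ hxy (a, b)) = alpha h θ Λ hxy (a', b') := by
  induction s using MvPolynomial.induction_on generalizing a b with
  | C c =>
    refine ⟨c • a, Submodule.smul_mem _ c ha, c • b, Submodule.smul_mem _ c hb, ?_⟩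
    rw [← MvPolynomial.algebraMap_eq, AlgHom.commutes, Module.algebraMap_end_apply, ← map_smul]
    rfl
  | add f g hf hg =>
    obtain ⟨a₁, ha₁, b₁, hb₁, e₁⟩ := hf ha hb
    obtain ⟨a₂, ha₂, b₂, hb₂, e₂⟩ := hg ha hb
    refine ⟨a₁ + a₂, add_mem ha₁ ha₂, b₁ + b₂, add_mem hb₁ hb₂, ?_⟩
    rw [map_add, LinearMap.add_apply, e₁, e₂, ← map_add]
    rfl
  | mul_X f l hf =>
    obtain ⟨a', ha', b', hb', e⟩ := heckeOp_alpha_localH1 h θ pr ξ hxy hq hqM hpr l ha hb
    obtain ⟨a₁, ha₁, b₁, hb₁, e₁⟩ := hf ha' hb'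
    exact ⟨a₁, ha₁, b₁, hb₁, by rw [map_mul, Module.End.mul_apply, heckeHom_X, id_eq, e, e₁]⟩

omit [IsDomain O] [IsNoetherianRing O] [Module.Finite O Λ] in
include hqM in
/-- `U_q² - θ(q)⁻¹` maps the local part into the degeneracy image. -/
theorem sq_sub_mem_range
    (π : MvPolynomial Nat.Primes Λ →ₐ[Λ] Module.End Λ (localH1 (h.mul_right q) θ Λ pr ξ))
    (hπ : ∀ s v, ((π s v : localH1 (h.mul_right q) θ Λ pr ξ) :
      H1 (levelChar (h.mul_right q) θ) Λ) =
        heckeHom (R := Λ) (h.mul_right q) θ Λ (id : Nat.Primes → Nat.Primes) s v)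
    (v : localH1 (h.mul_right q) θ Λ pr ξ) :
    π (MvPolynomial.X ⟨q, hq⟩ * MvPolynomial.X ⟨q, hq⟩ - MvPolynomial.C (alScalar h θ hxy)) v ∈
      LinearMap.range (alphaLoc ξ h θ hxy hq hpr Λ) := by
  have h3 := heckeU_heckeU h θ hxy hq hqM (v : H1 (levelChar (h.mul_right q) θ) Λ)
  refine ⟨(⟨_, trace_mem_localH1 h θ hq hpr (atkin_mem_localH1 h θ hxy hq hpr (z :=
      heckeU (h.mul_right q) θ Λ (dvd_mul_left q M) v) ?_)⟩,
    ⟨_, Submodule.neg_mem _
      (trace_mem_localH1 h θ hq hpr (atkin_mem_localH1 h θ hxy hq hpr v.2))⟩),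
    Subtype.ext ?_⟩
  · rw [← heckeOp_of_dvd (h.mul_right q) θ Λ (l := ⟨q, hq⟩) (dvd_mul_left q M)]
    exact heckeOp_mem_localH1 (h.mul_right q) θ pr ξ _ v.2
  · refine (coe_alphaLoc h θ hxy hq hpr _).trans ?_
    refine h3.symm.trans ?_
    have hX : ∀ u, heckeHom (R := Λ) (h.mul_right q) θ Λ (id : Nat.Primes → Nat.Primes)
        (MvPolynomial.X ⟨q, hq⟩) u = heckeU (h.mul_right q) θ Λ (dvd_mul_left q M) u := fun u =>
      (LinearMap.congr_fun (heckeHom_X (R := Λ) (h.mul_right q) θ Λ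
        (id : Nat.Primes → Nat.Primes) ⟨q, hq⟩) u).trans (LinearMap.congr_fun
          (heckeOp_of_dvd (h.mul_right q) θ Λ (l := ⟨q, hq⟩) (dvd_mul_left q M)) u)
    rw [hπ, map_sub, map_mul, LinearMap.sub_apply, Module.End.mul_apply, hX, hX,
      ← MvPolynomial.algebraMap_eq, AlgHom.commutes, Module.algebraMap_end_apply]

include hqM in
/-- Points detecting the local part at level `M q` contain points detecting its quotient by the
degeneracy image, with `U_q² = θ(q)⁻¹`. -/
theorem exists_detecting_new [Module.Finite Λ (localH1 (h.mul_right q) θ Λ pr ξ)]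
    [Module.Projective Λ (localH1 (h.mul_right q) θ Λ pr ξ)]
    (htfΛ : ∀ c : O, c ≠ 0 → ∀ a, algebraMap O Λ c * a = 0 → a = 0)
    (hinv : ∃ g : localH1 (h.mul_right q) θ Λ pr ξ →ₗ[Λ] localH1 h θ Λ pr ξ × localH1 h θ Λ pr ξ,
      g.comp (alphaLoc ξ h θ hxy hq hpr Λ) = LinearMap.id)
    {f : J → Nat.Primes} (hf : ∀ j, f j = pr j) {m : ℕ} {R : Fin m → Type}
    [∀ k, CommRing (R k)] [∀ k, IsDomain (R k)] [∀ k, Algebra O (R k)]
    [∀ k, Module.Finite O (R k)] (pt : ∀ k, MvPolynomial Nat.Primes Λ →ₐ[O] R k)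
    (hker : ∀ k s, (∀ v ∈ localH1 (h.mul_right q) θ Λ pr ξ,
      heckeHom (R := Λ) (h.mul_right q) θ Λ (id : Nat.Primes → Nat.Primes) s v = 0) → pt k s = 0)
    (hnil : ∀ s, (∀ k, pt k s = 0) → ∃ j, ∀ v ∈ localH1 (h.mul_right q) θ Λ pr ξ,
      heckeHom (R := Λ) (h.mul_right q) θ Λ (id : Nat.Primes → Nat.Primes) (s ^ j) v = 0)
    {G : Type} (prG : G → Nat.Primes)
    (hdet : ∀ s : MvPolynomial G Λ, (∀ k, pt k (MvPolynomial.rename prG s) = 0) →
      ∀ v ∈ localH1 (h.mul_right q) θ Λ pr ξ, heckeHom (R := Λ) (h.mul_right q) θ Λ prG s v = 0) :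
    ∃ sub : Fin m → Prop,
      (∀ k, sub k → pt k (MvPolynomial.X ⟨q, hq⟩) * pt k (MvPolynomial.X ⟨q, hq⟩) =
        pt k (MvPolynomial.C (alScalar h θ hxy))) ∧
      ∀ s : MvPolynomial G Λ, (∀ k, sub k → pt k (MvPolynomial.rename prG s) = 0) →
        ∀ v : localH1 (h.mul_right q) θ Λ pr ξ, ∃ w,
          heckeHom (R := Λ) (h.mul_right q) θ Λ prG s v =
            (alphaLoc ξ h θ hxy hq hpr Λ w : H1 (levelChar (h.mul_right q) θ) Λ) := by
  set V := localH1 (h.mul_right q) θ Λ pr ξ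
  set α := alphaLoc ξ h θ hxy hq hpr Λ
  let W : Submodule Λ V := LinearMap.range α
  let π : MvPolynomial Nat.Primes Λ →ₐ[Λ] Module.End Λ V :=
    restrictHom (h.mul_right q) (id : Nat.Primes → Nat.Primes) V
      fun s y hy => heckeHom_mem_localH1 (f := f) (h.mul_right q) θ pr id hf ξ s hy
  have hπ : ∀ s (v : V), ((π s v : V) : H1 (levelChar (h.mul_right q) θ) Λ) =
      heckeHom (R := Λ) (h.mul_right q) θ Λ (id : Nat.Primes → Nat.Primes) s v := fun _ _ => rfl
  have hW : ∀ s, ∀ v ∈ W, π s v ∈ W := fun s v hv => by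
    obtain ⟨⟨a, b⟩, rfl⟩ := hv
    obtain ⟨a', ha', b', hb', hw⟩ := heckeHom_alpha_localH1 h θ pr ξ hxy hq hqM hpr s a.2 b.2
    exact ⟨(⟨a', ha'⟩, ⟨b', hb'⟩), Subtype.ext hw.symm⟩
  let IQ : Ideal (MvPolynomial Nat.Primes Λ) :=
    { carrier := {s | ∀ v, π s v ∈ W}
      add_mem' := fun ha hb v => by rw [map_add, LinearMap.add_apply]; exact W.add_mem (ha v) (hb v)
      zero_mem' := fun v => by rw [map_zero, LinearMap.zero_apply]; exact W.zero_mem
      smul_mem' := fun a b hb v => by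
        rw [smul_eq_mul, map_mul, Module.End.mul_apply]
        exact hW a _ (hb v) }
  have hAI : RingHom.ker π ≤ IQ := fun s hs v => by
    rw [RingHom.mem_ker.mp hs, LinearMap.zero_apply]
    exact W.zero_mem
  have hA : ∀ k, ∀ s ∈ RingHom.ker π, pt k s = 0 := fun k s hs => hker k s fun v hv => by
    rw [← hπ s ⟨v, hv⟩, RingHom.mem_ker.mp hs]
    rfl
  have hnil' : ∀ s, (∀ k, pt k s = 0) → ∃ j, s ^ j ∈ RingHom.ker π := fun s hs => by
    obtain ⟨j, hj⟩ := hnil s hs
    exact ⟨j, RingHom.mem_ker.mpr (LinearMap.ext fun v => Subtype.ext (hj v v.2))⟩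
  obtain ⟨g, hg⟩ := hinv
  have htf : ∀ (c : O) (s : MvPolynomial Nat.Primes Λ), c ≠ 0 →
      algebraMap O (MvPolynomial Nat.Primes Λ) c * s ∈ IQ → s ∈ IQ := fun c s hc hs v => by
    have h1 : algebraMap O Λ c • π s v ∈ W := by
      have h1 := hs v
      rwa [IsScalarTower.algebraMap_apply O Λ (MvPolynomial Nat.Primes Λ), map_mul, AlgHom.commutes,
        Module.End.mul_apply, Module.algebraMap_end_apply] at h1
    obtain ⟨w, hw⟩ := h1
    refine ⟨g (π s v), sub_eq_zero.mp (eq_zero_of_smul_eq_zero (c := algebraMap O Λ c)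
      (htfΛ c hc) ?_)⟩
    rw [smul_sub, ← map_smul α, ← map_smul g, ← hw,
      show g (α w) = w from LinearMap.congr_fun hg w, sub_self]
  let good : Subalgebra O (MvPolynomial Nat.Primes Λ) :=
    ((MvPolynomial.rename prG).restrictScalars O : MvPolynomial G Λ →ₐ[O] _).range
  have hgood : ∀ s ∈ good, (∀ k, pt k s = 0) → s ∈ RingHom.ker π := by
    rintro _ ⟨s, rfl⟩ hs
    refine RingHom.mem_ker.mpr (LinearMap.ext fun v => Subtype.ext ?_)
    show heckeHom (R := Λ) (h.mul_right q) θ Λ (id : Nat.Primes → Nat.Primes)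
      (MvPolynomial.rename prG s) v = 0
    rw [heckeHom_rename]
    exact hdet s hs v v.2
  have hint : ∀ s ∈ good, ∃ P : Polynomial O, P.Monic ∧ Polynomial.aeval s P ∈ RingHom.ker π := by
    intro s _
    have : Module.Finite O V := Module.Finite.trans Λ _
    have : Module.Finite O (Module.End Λ V) := Module.Finite.of_injective
      (LinearMap.restrictScalarsₗ O Λ V V O) (LinearMap.restrictScalars_injective O)
    obtain ⟨P, hP, hP0⟩ := IsIntegral.of_finite O (π s)
    refine ⟨P, hP, RingHom.mem_ker.mpr ?_⟩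
    rw [← Polynomial.aeval_def] at hP0
    exact (Polynomial.aeval_algHom_apply (π.restrictScalars O) s P).symm.trans hP0
  refine ⟨fun k => ∀ t ∈ IQ, pt k t = 0, fun k hk => ?_, fun s hs v => ?_⟩
  · have hmem : MvPolynomial.X ⟨q, hq⟩ * MvPolynomial.X ⟨q, hq⟩ -
        MvPolynomial.C (alScalar h θ hxy) ∈ IQ := fun v =>
      sq_sub_mem_range h θ pr ξ hxy hq hqM hpr π hπ v
    have h2 := hk _ hmem
    rwa [map_sub, map_mul, sub_eq_zero] at h2
  · obtain ⟨w, hw⟩ := mem_of_detect hAI htf pt hnil' good hA hgood hint ⟨s, rfl⟩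
      (fun k hk => hs k hk) v
    refine ⟨w, ?_⟩
    rw [← heckeHom_rename]
    exact (congrArg Subtype.val hw).symm

end New

variable {O : Type} [CommRing O] [IsDomain O] [IsDiscreteValuationRing O]
  [IsAdicComplete (maximalIdeal O) O] [Finite (ResidueField O)] [CharZero O]
  {p r : ℕ} [Fact p.Prime] [Algebra (ZMod p) (ResidueField O)] {I : Type} [Fintype I]
  (C : Ctx O p r I)

omit [Finite (ResidueField O)] [CharZero O] in
theorem Ctx.Admissible.cons {L : List (Option I)} (hL : C.Admissible L) {i : Option I}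
    (hi : i ∉ L) : C.Admissible (i :: L) where
  nodup := List.nodup_cons.mpr ⟨hi, hL.nodup⟩
  three := hL.three.imp id fun ⟨j, hj, h⟩ => ⟨j, List.mem_cons_of_mem _ hj, h⟩

/-- **The points which are new at a new place.** -/
theorem Ctx.exists_newFamily (n : ℕ) {L : List (Option I)} (hL : C.Admissible L) {i : Option I}
    (hi : i ∉ L) {x y : ℤ} (hxy : x * (C.place i : ℕ) - y * (C.lvl n L : ℕ) = 1)
    (hpr : ∀ j : C.J, (C.pr j : ℕ) ≠ (C.place i : ℕ)) [NeZero (C.place i : ℕ)] :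
    ∃ (m : ℕ) (pt : Fin m → LvlPt C n (i :: L)), (∀ k, IsResidualPoint (pt k)) ∧
      (∀ k s, (∀ v ∈ C.V n (i :: L), heckeHom (R := Diamond O r p n)
        (C.modulus_dvd_lvl n (i :: L)) (C.θ n) (Diamond O r p n)
          (id : Nat.Primes → Nat.Primes) s v = 0) → (pt k).x s = 0) ∧
      (∀ k, (pt k).x (MvPolynomial.C (C.κv n (C.place i)) * MvPolynomial.X (C.place i)) ^ 2 = 1) ∧
      ∀ s : MvPolynomial (Good (C.lvl n (i :: L)) 0) (Diamond O r p n),
        (∀ k, (pt k).x (MvPolynomial.rename Subtype.val s) = 0) →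
          ∀ v : C.V n (i :: L), ∃ w,
            heckeHom (R := Diamond O r p n) (C.modulus_dvd_lvl n (i :: L)) (C.θ n) (Diamond O r p n)
              (fun l : Good (C.lvl n (i :: L)) 0 => (l : Nat.Primes)) s v =
                (alphaLoc (C.ξ n) (C.modulus_dvd_lvl n L) (C.θ n) hxy (C.place i).2 hpr
                  (Diamond O r p n) w).1 := by
  classical
  have := C.finite_diamond n
  have := C.isTorsionFree_diamond n
  have := C.isReduced_diamond n
  have hL' := Ctx.Admissible.cons C hL hi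
  have : NeZero (C.lvl n L * (C.place i : ℕ)) := C.neZero_lvl n (i :: L)
  have hfin : Module.Finite (Diamond O r p n) (C.V n (i :: L)) := (C.finite_free_V n hL').1
  have hfree : Module.Free (Diamond O r p n) (C.V n (i :: L)) := (C.finite_free_V n hL').2
  have : Module.Finite (Diamond O r p n) (localH1 ((C.modulus_dvd_lvl n L).mul_right
    (C.place i : ℕ)) (C.θ n) (Diamond O r p n) C.pr (C.ξ n)) := hfin
  have : Module.Free (Diamond O r p n) (localH1 ((C.modulus_dvd_lvl n L).mul_right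
    (C.place i : ℕ)) (C.θ n) (Diamond O r p n) C.pr (C.ξ n)) := hfree
  obtain ⟨m, pt, hres, hker, hnil, hdet⟩ := C.exists_lvlPts n hL'
  obtain ⟨sub, hsub, hs⟩ := exists_detecting_new (O := O) (C.modulus_dvd_lvl n L) (C.θ n) C.pr
    (C.ξ n) hxy (C.place i).2 (C.not_dvd_place hi) hpr
    (fun c hc a ha => by
      rw [← Algebra.smul_def] at ha
      exact (smul_eq_zero.mp ha).resolve_left hc)
    (C.exists_wall_inverses n i hL hxy hpr).1 (f := Subtype.val) (fun _ => rfl)
    (fun k => (pt k).x) hker hnil _ hdet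
  let e := Fintype.equivFin {k // sub k}
  refine ⟨_, fun k => pt (e.symm k).1, fun k => hres _, fun k => hker _, fun k => ?_,
    fun s h v => hs s (fun k hk => ?_) v⟩
  · have hcop : (C.place i : ℕ).Coprime (C.modulus n) := C.coprime_place n i
    have hone : C.κ n (ZMod.unitOfCoprime _ hcop) ^ 2 *
        alScalar (C.modulus_dvd_lvl n L) (C.θ n) hxy = 1 := by
      rw [alScalar, C.theta_eq, ← mul_pow, ← map_mul, mul_inv_cancel, map_one, one_pow]
    have h2 := hsub _ (e.symm k).2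
    show (pt (e.symm k).1).x _ ^ 2 = 1
    rw [Ctx.κv, dif_pos hcop, map_mul, mul_pow, ← map_pow, ← map_pow, sq ((pt (e.symm k).1).x
      (MvPolynomial.X (C.place i)))]
    refine (congrArg (_ * ·) h2).trans ?_
    rw [← map_mul, ← map_mul, hone, map_one, map_one]
  · let P : Fin m → Prop := fun j => (pt j).x (MvPolynomial.rename Subtype.val s) = 0
    have h2 : P (e.symm (e ⟨k, hk⟩)).1 := h (e ⟨k, hk⟩)
    rw [e.symm_apply_apply] at h2
    exact h2

end FermatAgent.RTLift.Setup
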