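import Fermat.Agent.RTLift.Setup.Points.NewForm
import Fermat.Agent.RTLift.Setup.Points.Local
import Fermat.Agent.S35
import Fermat.Agent.GalRep.Density.Charpoly

/-!
# Frobenius at a new place
-/

set_option autoImplicit false

noncomputable section

namespace FermatAgent.RTLift.Setup

open IsLocalRing FermatAgent.RTLift.Modules FermatAgent.RTLift.Engine FermatAgent.RTLift.LocalRings CuspForm Polynomial
  CongruenceSubgroup ModularFormClass

local notation "Qb" => AlgebraicClosure ℚ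
local notation "GQ" => AlgebraicClosure ℚ ≃ₐ[ℚ] AlgebraicClosure ℚ

/-- The characteristic polynomial of a matrix representation. -/
theorem charpoly_toAdic {A : Type} [CommRing A] [IsLocalRing A] (r : GQ →* Matrix (Fin 2) (Fin 2) A)
    (hr : DefRing.IsCont r) (σ : GQ) :
    ((DefRing.toAdic r hr).ρ σ).charpoly = X ^ 2 - C (r σ).trace * X + C (r σ).det := by
  rw [← Matrix.charpoly_fin_two]
  exact Matrix.charpoly_toLin' (r σ)

/-- The trace of a matrix after a change of ring. -/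
theorem trace_map_ringHom {A B : Type} [CommRing A] [CommRing B] (f : A →+* B)
    (M : Matrix (Fin 2) (Fin 2) A) : (M.map f).trace = f M.trace := by
  simp [Matrix.trace_fin_two]

/-- A map of the eigenvalues of a newform agreeing with given values. -/
theorem exists_iota {M : ℕ} [NeZero M] {g : CuspForm (Gamma0 M) 2} {S : Set ℕ}
    {chig : heckeAlgebra M 2 S →+* ℂ}
    (hchig : ∀ (ℓ : ℕ) (hℓ : ℓ.Prime) (hℓM : ¬ ℓ ∣ M) (hℓS : ℓ ∉ S),
      chig (heckeAlgebra.T hℓ hℓM hℓS) = qCoeff (⇑g) ℓ)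
    (hMS : ∀ q : ℕ, q.Prime → q ∣ M → q ∈ S) {G : Type} (prime : G → Nat.Primes)
    (hcov : ∀ ℓ : Nat.Primes, (ℓ : ℕ) ∉ S → ∃ l, prime l = ℓ) {A : Type} [CommRing A] (a : G → A)
    (hsys : ∀ P : MvPolynomial G ℤ, MvPolynomial.aeval a P = 0 ↔
      MvPolynomial.aeval (fun l => qCoeff (⇑g) (prime l : ℕ)) P = 0) :
    ∃ iota : chig.range →+* A, ∀ (l : G) (hℓM : ¬ (prime l : ℕ) ∣ M) (hℓS : (prime l : ℕ) ∉ S),
      iota (chig.rangeRestrict (heckeAlgebra.T (prime l).2 hℓM hℓS)) = a l := by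
  let ev : MvPolynomial G ℤ →+* ℂ :=
    (MvPolynomial.aeval fun l => qCoeff (⇑g) (prime l : ℕ)).toRingHom
  let j : ev.range →+* A := ev.rangeRestrict.liftOfSurjective ev.rangeRestrict_surjective
    ⟨(MvPolynomial.aeval a).toRingHom, fun P hP => by
      rw [RingHom.mem_ker] at hP ⊢
      exact (hsys P).mpr (congrArg Subtype.val hP)⟩
  have hle : chig.range ≤ ev.range := by
    rintro _ ⟨⟨t, ht⟩, rfl⟩
    induction ht using Algebra.adjoin_induction with
    | mem x hx =>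
      rcases hx with ⟨ℓ, hℓ, hℓM, hℓS, rfl⟩ | ⟨ℓ, hℓM, hℓ, hℓS, rfl⟩
      · obtain ⟨l, hl⟩ := hcov ⟨ℓ, hℓ⟩ hℓS
        refine ⟨MvPolynomial.X l, ?_⟩
        show MvPolynomial.aeval _ (MvPolynomial.X l) = _
        rw [MvPolynomial.aeval_X, show (prime l : ℕ) = ℓ from congrArg Subtype.val hl]
        exact (hchig ℓ hℓ hℓM hℓS).symm
      · exact absurd (hMS ℓ hℓ hℓM) hℓS
    | algebraMap c =>
      exact ⟨(c : MvPolynomial G ℤ), (map_intCast ev c).trans
        (eq_intCast (chig.comp (algebraMap ℤ _)) c).symm⟩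
    | add x y hx hy ihx ihy =>
      change chig (⟨x, hx⟩ + ⟨y, hy⟩) ∈ _
      rw [map_add]
      exact add_mem ihx ihy
    | mul x y hx hy ihx ihy =>
      change chig (⟨x, hx⟩ * ⟨y, hy⟩) ∈ _
      rw [map_mul]
      exact mul_mem ihx ihy
  refine ⟨j.comp (Subring.inclusion hle), fun l hℓM hℓS => ?_⟩
  have h1 : Subring.inclusion hle (chig.rangeRestrict (heckeAlgebra.T (prime l).2 hℓM hℓS)) =
      ev.rangeRestrict (MvPolynomial.X l) := Subtype.ext (by
    show chig _ = MvPolynomial.aeval _ (MvPolynomial.X l)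
    rw [MvPolynomial.aeval_X, hchig])
  rw [RingHom.comp_apply, h1]
  exact (RingHom.liftOfSurjective_comp_apply _ _ _ _).trans (MvPolynomial.aeval_X a l)

variable {O : Type} [CommRing O] [IsDomain O] [IsDiscreteValuationRing O]
  [IsAdicComplete (maximalIdeal O) O] [Finite (ResidueField O)] [CharZero O]
  {p r : ℕ} [Fact p.Prime] [Algebra (ZMod p) (ResidueField O)] {I : Type} [Fintype I]
  {C : Ctx O p r I} {n : ℕ} {L : List (Option I)}

omit [Finite (ResidueField O)] [CharZero O] in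
theorem Ctx.χ_frobenius (C : Ctx O p r I) {ℓ : ℕ} (hℓ : ℓ.Prime) (hℓp : ℓ ≠ p)
    {A : ValuationSubring Qb} (hA : A.LiesOverPrime ℓ) {τ : GQ} (hτ : A.IsFrobeniusAt τ ℓ) :
    C.χ τ = ℓ := by
  show GalRep.padicToRing C.hp (GalRep.cycChar p τ) = _
  rw [GalRep.cycChar_frobenius p hℓ hℓp hA hτ, map_natCast]

omit [Finite (ResidueField O)] [CharZero O] in
/-- **The trace of Frobenius at a prime dividing exactly the level of the newform of a point.** -/
theorem PointData.exists_trace_eq (P : PointData C n L) {M : ℕ} [NeZero M]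
    {g : CuspForm (Gamma0 M) 2} (hg : g.IsNewform) (hMN : M ∣ C.hlvl n L)
    (hsys : ∀ Q : MvPolynomial (Good (C.lvl n L) 0) ℤ,
      MvPolynomial.aeval (fun l : Good (C.lvl n L) 0 =>
          P.x (MvPolynomial.C (C.κv n l.1) * MvPolynomial.X l)) Q = 0 ↔
        MvPolynomial.aeval (fun l : Good (C.lvl n L) 0 => qCoeff (⇑g) (l.1 : ℕ)) Q = 0)
    {q : ℕ} (hq : q.Prime) (hqp : q ≠ p) (hqM : q ∣ M) (hq2 : ¬ q ^ 2 ∣ M)
    {B : ValuationSubring Qb} (hB : B.LiesOverPrime q) {σ : GQ} (hσ : B.IsFrobeniusAt σ q) :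
    ∃ ε : ℤˣ, Matrix.trace (P.rep σ) = ((ε : ℤ) : P.A) * ((q : P.A) + 1) := by
  classical
  let S : Finset ℕ := insert p (C.hlvl n L).primeFactors
  have hMS : ∀ q : ℕ, q.Prime → q ∣ M → q ∈ (↑S : Set ℕ) := fun q hq hd =>
    Finset.mem_insert_of_mem (Nat.mem_primeFactors.mpr ⟨hq, hd.trans hMN, NeZero.ne _⟩)
  obtain ⟨chig, -, hchig, -⟩ := DSLift.exists_ringHom_of_isNormalizedEigenform hg.1 (↑S : Set ℕ)
  have hgood : ∀ ℓ : ℕ, ℓ ∉ (↑S : Set ℕ) → ℓ.Prime → ℓ ≠ p ∧ ¬ ℓ ∣ C.lvl n L := fun ℓ hℓ hℓp =>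
    ⟨fun e => hℓ (e ▸ Finset.mem_insert_self _ _), fun hd => hℓ (Finset.mem_insert_of_mem
      (Nat.mem_primeFactors.mpr ⟨hℓp, hd.mul_right _, NeZero.ne _⟩))⟩
  obtain ⟨iota, hiota⟩ := exists_iota hchig hMS (fun l : Good (C.lvl n L) 0 => l.1)
    (fun ℓ hℓ => ⟨⟨ℓ, (hgood _ hℓ ℓ.2).2, ℓ.2.ne_zero⟩, rfl⟩)
    (fun l => P.x (MvPolynomial.C (C.κv n l.1) * MvPolynomial.X l)) hsys
  have hpA : (p : P.A) ∈ maximalIdeal P.A :=
    GalRep.natCast_mem_maximalIdeal_of_algebra (𝒪 := O) C.hp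
  obtain ⟨A', hA₁, hA₂, hA₃, hA₄, hA₅, hA₆, hA₇, hA₈, hA₉, hinj, ρ, hFrob, hq'⟩ :=
    Fermat.Agent.S35.result hg p S P.A hpA chig hchig iota (Finset.mem_insert_self _ _) hMS
  set f := algebraMap P.A A'
  let r' := DefRing.mapRep f P.rep
  have hr' : DefRing.IsCont r' := DefRing.isCont_map f hA₉ P.cont
  have hkey := GalRep.adic_charpoly_eq_of_frobenius (DefRing.toAdic r' hr') ρ S.finite_toSet
    (fun ℓ hℓ hℓS A hA τ hτ => by
      obtain ⟨hℓp, hℓL⟩ := hgood ℓ hℓS hℓ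
      have hℓM : ¬ ℓ ∣ M := fun h => hℓS (hMS ℓ hℓ h)
      let l : Good (C.lvl n L) 0 := ⟨⟨ℓ, hℓ⟩, hℓL, hℓ.ne_zero⟩
      rw [charpoly_toAdic, hFrob ℓ hℓ hℓM hℓS A hA τ hτ, DefRing.mapRep_apply,
        trace_map_ringHom, ← RingHom.mapMatrix_apply, ← RingHom.map_det,
        P.det_eq, C.χ_frobenius hℓ hℓp hA hτ, map_natCast, map_natCast]
      have h1 := P.trace_frob l hℓp A hA τ hτ
      rw [h1, ← hiota l hℓM hℓS]
      rfl) σ
  rw [charpoly_toAdic, DefRing.mapRep_apply, trace_map_ringHom] at hkey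
  rcases hq' q hq hqp hqM hq2 B hB σ hσ with h | h
  all_goals
    rw [h] at hkey
    have h1 := congrArg (fun Q => Q.coeff 1) hkey
    simp [Polynomial.coeff_X_pow] at h1
  · refine ⟨1, hinj ?_⟩
    simp only [Units.val_one, Int.cast_one, one_mul, map_add, map_natCast, map_one]
    linear_combination -h1
  · refine ⟨-1, hinj ?_⟩
    simp only [Units.val_neg, Units.val_one, Int.cast_neg, Int.cast_one, neg_mul, one_mul, map_neg,
      map_add, map_natCast, map_one]
    linear_combination -h1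

omit [Finite (ResidueField O)] in
/-- **A point with `U = ±1` at a new place is Steinberg there.** -/
theorem exists_sat_st {i : I} (hi : some i ∉ L) (hL : C.Admissible (some i :: L))
    (pt : LvlPt C n (some i :: L)) (hres : IsResidualPoint pt)
    (hker : ∀ s, (∀ y ∈ C.V n (some i :: L), heckeHom (R := Diamond O r p n)
      (C.modulus_dvd_lvl n (some i :: L)) (C.θ n) (Diamond O r p n)
        (id : Nat.Primes → Nat.Primes) s y = 0) → pt.x s = 0)
    (hsq : pt.x (MvPolynomial.C (C.κv n (C.place (some i))) *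
      MvPolynomial.X (C.place (some i))) ^ 2 = 1) :
    ∃ ε, Sat (.st ε) (C.D.q i : (PointData.ofFamPoint pt hres).A)
      (algebraMap O (PointData.ofFamPoint pt hres).A (C.D.c i))
      ((PointData.ofFamPoint pt hres).rep (C.Fr.frame i).frob)
      ((PointData.ofFamPoint pt hres).rep (C.Fr.frame i).gen - 1) := by
  set P := PointData.ofFamPoint pt hres
  refine (P.sat_plain hL.nodup i).elim (fun hur => ?_) id
  obtain ⟨hN, hdet⟩ := sat_ur_iff.mp hur
  obtain ⟨M, hM, g, hg, hMN, hqM, hq2, hsys⟩ := exists_newform_of_sq_eq_one hi pt hres hker hsq hL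
  obtain ⟨ε, hε⟩ := P.exists_trace_eq hg hMN (fun Q => by
      have h : (fun l : Good (C.lvl n (some i :: L)) 0 =>
          P.x (MvPolynomial.C (C.κv n l.1) * MvPolynomial.X l)) = fun l =>
          pt.x (MvPolynomial.C (C.κv n l.1) * MvPolynomial.X l.1) := funext fun l => by
        show pt.x (MvPolynomial.rename _ _) = _
        rw [map_mul (MvPolynomial.rename _), MvPolynomial.rename_C, MvPolynomial.rename_X]
      rw [h]
      exact hsys Q) (C.Fr.q i).2 (C.Fr.ne i) hqM hq2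
    (C.Fr.frame i).liesOver (C.Fr.frame i).isFrobenius
  exact ⟨ε, sat_st_iff.mpr ⟨hdet, by rw [hε, C.D_q], by rw [hN, Matrix.trace_zero],
    by rw [hN, Matrix.det_zero], by rw [hN, mul_zero, smul_zero],
    by rw [hN, zero_mul, smul_zero]⟩⟩

end FermatAgent.RTLift.Setup
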