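import Fermat.Agent.RTLift.Setup.Points.NewTrace
import Fermat.Agent.RTLift.Systems.TwistClass
import Fermat.Agent.RTLift.Systems.Lattice
import Fermat.Agent.RTLift.Systems.PointEigen
import Fermat.Agent.RTLift.NewPart.TwistKill
import Fermat.Agent.RTLift.Galois.Model
import Fermat.Agent.RT.Frobenius
import Fermat.Agent.TWLocal.Main

/-!
# Inertia at a prime of the modulus of a twisted point

Stated for any modulus `M₀` and any character `κ` of `p`-power order, so that it also serves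
points with further characters.
-/

set_option autoImplicit false

noncomputable section

namespace FermatAgent.RTLift.Setup

open scoped MatrixGroups
open IsLocalRing CongruenceSubgroup Polynomial FermatAgent.RTLift.Modules
  FermatAgent.RTLift.Engine FermatAgent.RTLift.Systems

local notation "Qb" => AlgebraicClosure ℚ
local notation "GQ" => AlgebraicClosure ℚ ≃ₐ[ℚ] AlgebraicClosure ℚ

variable {O : Type} [CommRing O] [IsDomain O] [IsDiscreteValuationRing O]
  [IsAdicComplete (maximalIdeal O) O]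
  {p r : ℕ} [Fact p.Prime] [Algebra (ZMod p) (ResidueField O)] {I : Type} [Fintype I]

set_option maxHeartbeats 1000000 in
/-- No character is a root of the residual characteristic polynomials. -/
theorem Ctx.residual_no_char [Finite (ResidueField O)] (C : Ctx O p r I) {R : Type} [CommRing R]
    [IsLocalRing R]
    [Algebra O R] [IsLocalHom (algebraMap O R)] (rep : GQ →* Matrix (Fin 2) (Fin 2) R)
    (hdet : ∀ σ, (rep σ).det = algebraMap O R (C.χ σ))
    (htr : ∀ σ, ∃ o : O,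
      residue O o = Matrix.trace (C.ρ σ : Matrix (Fin 2) (Fin 2) (ResidueField O)) ∧
        Matrix.trace (rep σ) - algebraMap O R o ∈ maximalIdeal R)
    (s : GQ →* ResidueField R) :
    ¬ ∀ σ, s σ ^ 2 - residue R (Matrix.trace (rep σ)) * s σ + residue R (rep σ).det = 0 := by
  intro hs
  let f : ResidueField O →+* ResidueField R := ResidueField.map (algebraMap O R)
  let ρm : GQ →* Matrix (Fin 2) (Fin 2) (ResidueField O) :=
    (Units.coeHom (Matrix (Fin 2) (Fin 2) (ResidueField O))).comp C.ρ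
  have h2 : (2 : ResidueField O) ≠ 0 := TW.two_ne_zero_of C.twHyp.ne_two
  have hhalf : 2 * (2 : ResidueField O)⁻¹ = 1 := mul_inv_cancel₀ h2
  set c : GQ := complexConjugation with hc
  have hcc : c * c = 1 := complexConjugation_mul_self
  have htrc : Matrix.trace (ρm c) = 0 := Galois.trace_residual_conj C.twHyp
  obtain ⟨N, P, hP, hrP, hNtr, hNc⟩ := Galois.exists_conj_diag ρm hhalf hcc htrc
  obtain ⟨-, hU⟩ := Galois.nf_entries N hhalf hNc
  obtain ⟨h₁, h₂, hne⟩ := Galois.exists_nfU_ne_zero ρm hhalf hcc htrc C.twHyp.noFixedPoint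
  rw [show (fun σ => Matrix.trace (ρm σ)) = fun σ => Matrix.trace (N σ) from
    funext fun σ => (hNtr σ).symm, ← hU] at hne
  obtain ⟨hb1, hc2⟩ := mul_ne_zero_iff.mp hne
  have htr' : ∀ σ, residue R (Matrix.trace (rep σ)) = f (N σ 0 0) + f (N σ 1 1) := fun σ => by
    obtain ⟨o, ho, hmem⟩ := htr σ
    rw [← residue_eq_zero_iff, map_sub, sub_eq_zero, ← ResidueField.map_residue, ho] at hmem
    rw [hmem, show Matrix.trace (C.ρ σ : Matrix (Fin 2) (Fin 2) (ResidueField O)) =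
      Matrix.trace (ρm σ) from rfl, ← hNtr, Matrix.trace_fin_two, map_add]
  have hdet' : ∀ σ, residue R (rep σ).det =
      f (N σ 0 0) * f (N σ 1 1) - f (N σ 0 1) * f (N σ 1 0) := fun σ => by
    have h1 := congrArg Matrix.det (hrP σ)
    rw [Matrix.det_mul, Matrix.det_mul, mul_comm P.det] at h1
    rw [hdet, ← ResidueField.map_residue]
    refine (congrArg f ((C.det_cyclo σ).trans (hP.mul_right_cancel h1))).trans ?_
    rw [Matrix.det_fin_two, map_sub, map_mul, map_mul]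
  have hsu : ∀ σ, s σ ≠ 0 := fun σ h0 => one_ne_zero (α := ResidueField R) (by
    rw [← map_one s, ← mul_inv_cancel σ, map_mul, h0, zero_mul])
  have hmul : ∀ (σ τ : GQ) (i j : Fin 2),
      f (N (σ * τ) i j) = f (N σ i 0) * f (N τ 0 j) + f (N σ i 1) * f (N τ 1 j) := fun σ τ i j => by
    rw [map_mul, Matrix.mul_apply, Fin.sum_univ_two, map_add, map_mul, map_mul]
  have h2R : (2 : ResidueField R) ≠ 0 := fun h0 => h2 (f.injective (by
    rw [map_ofNat, map_zero, h0]))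
  have hsc : s c = 1 ∨ s c = -1 := mul_self_eq_one_iff.mp (by rw [← map_mul, hcc, map_one])
  have key : ∀ σ, 2 * (s σ * s σ) - (f (N σ 0 0) + f (N σ 1 1)) * s σ -
      s c * (f (N σ 0 0) - f (N σ 1 1)) * s σ = 0 := fun σ => by
    have e1 := hs σ
    have e2 := hs (c * σ)
    rw [htr', hdet', map_mul] at e2
    simp only [map_mul N, hNc, Matrix.mul_apply, Fin.sum_univ_two] at e2
    simp at e2
    rw [htr', hdet'] at e1
    have hsc2 : s c * s c = 1 := by rw [← map_mul, hcc, map_one]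
    linear_combination e1 + e2 - (s σ * s σ) * hsc2
  rcases hsc with h | h
  · have hA : ∀ σ, s σ = f (N σ 0 0) := fun σ => by
      have h1 := key σ
      rw [h] at h1
      refine mul_left_cancel₀ (mul_ne_zero h2R (hsu σ)) ?_
      linear_combination h1
    have h1 := map_mul s h₁ h₂
    rw [hA, hA, hA, hmul, add_eq_left, ← map_mul, map_eq_zero, mul_eq_zero] at h1
    exact h1.elim hb1 hc2
  · have hD : ∀ σ, s σ = f (N σ 1 1) := fun σ => by
      have h1 := key σ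
      rw [h] at h1
      refine mul_left_cancel₀ (mul_ne_zero h2R (hsu σ)) ?_
      linear_combination h1
    have h1 := map_mul s h₂ h₁
    rw [hD, hD, hD, hmul, add_eq_right, ← map_mul, map_eq_zero, mul_eq_zero] at h1
    exact h1.elim hc2 hb1

variable {Λ : Type} [CommRing Λ] [Algebra O Λ] [Module.Finite O Λ] [IsReduced Λ]

set_option synthInstance.maxHeartbeats 200000 in
/-- **Inertia at a prime `q ≡ 1` of the modulus of a twisted point with residually distinct roots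
has the eigenvalues `κ^{±1}`.** -/
theorem Ctx.trace_inertia_of_twistedPoint [Finite (ResidueField O)] (C : Ctx O p r I)
    {M₀ M N T : ℕ} [NeZero M] [NeZero N]
    (h : M₀ ∣ M) (hMT : M = M₀ * T) (hsq : Squarefree M₀) (hcop : M₀.Coprime T)
    {θ κ : (ZMod M₀)ˣ →* Λ} (hθ : ∀ a, θ a = κ a ^ 2) (hκ : ∀ a, ∃ k : ℕ, κ a ^ p ^ k = 1)
    {S : Set ℕ} (pt : FamPoint O Λ (id : Nat.Primes → Nat.Primes) κ N S)
    (V : Submodule Λ (H1 (levelChar h θ) Λ))
    (hV : ∀ (s : MvPolynomial Nat.Primes Λ), ∀ y ∈ V,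
      heckeHom h θ Λ (id : Nat.Primes → Nat.Primes) s y ∈ V) [Module.Finite O V]
    (hker : ∀ s, (∀ y ∈ V, heckeHom h θ Λ (id : Nat.Primes → Nat.Primes) s y = 0) → pt.x s = 0)
    (three : IsUnit (3 : O) ∨ ∃ r, r.Prime ∧ r % 3 = 2 ∧ r ∣ M)
    (rep : GQ →* Matrix (Fin 2) (Fin 2) pt.R) (cont : DefRing.IsCont rep)
    (det_eq : ∀ σ, (rep σ).det = algebraMap O pt.R (C.χ σ))
    (trace_residual : ∀ σ, ∃ o : O,
      residue O o = Matrix.trace (C.ρ σ : Matrix (Fin 2) (Fin 2) (ResidueField O)) ∧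
        Matrix.trace (rep σ) - algebraMap O pt.R o ∈ maximalIdeal pt.R)
    (trace_frob : ∀ (l : Nat.Primes), ¬ (l : ℕ) ∣ M → (l : ℕ) ≠ p →
      ∀ hl : (l : ℕ).Coprime M₀, ∀ P : ValuationSubring Qb, P.LiesOverPrime (l : ℕ) →
        ∀ φ : GQ, P.IsFrobeniusAt φ (l : ℕ) → Matrix.trace (rep φ) =
          pt.x (MvPolynomial.C (κ (ZMod.unitOfCoprime l hl)) * MvPolynomial.X l))
    {q : ℕ} (hq : q.Prime) (hqM₀ : q ∣ M₀) (hqp : q ≠ p) (hq1 : (q : ZMod p) = 1)
    {α : O} (hα0 : residue O α ≠ 0) (hα2 : residue O α ^ 2 ≠ 1)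
    (hxq : pt.x (MvPolynomial.X ⟨q, hq⟩) - algebraMap O pt.R α ∈ maximalIdeal pt.R)
    (P : ValuationSubring Qb) (hP : P.LiesOverPrime q) (σ : GQ)
    (hσ : σ ∈ P.inertiaSubgroupIn ℚ) (u : (ZMod M₀)ˣ)
    (hu : ∀ (d : ℕ) (hd : d ∣ M₀), d.Coprime q → ZMod.unitsMap hd u = 1)
    (hz : ∀ z : Qb, z ^ q = 1 → σ z = z ^ ((ZMod.unitsMap hqM₀ u : ZMod q)).val) :
    Matrix.trace (rep σ) = pt.baseHom (κ u + κ u⁻¹) := by
  classical
  obtain ⟨M₁, rfl⟩ := hqM₀
  have hqprime := Fact.mk hq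
  have : NeZero q := ⟨hq.ne_zero⟩
  have hqM₁ : q.Coprime M₁ := Nat.coprime_of_squarefree_mul hsq
  have hq_not : ¬ q ∣ M₁ := hq.coprime_iff_not_dvd.mp hqM₁
  have hqT : ¬ q ∣ T := hq.coprime_iff_not_dvd.mp (hcop.coprime_dvd_left (dvd_mul_right q M₁))
  set N₁ := T * M₁ * M₁ with hN₁
  have hqN₁ : ¬ q ∣ N₁ := fun hd =>
    (hq.dvd_mul.mp hd).elim (fun h1 => (hq.dvd_mul.mp h1).elim hqT hq_not) hq_not
  have : NeZero N₁ := ⟨fun h0 => by
    rcases mul_eq_zero.mp h0 with h1 | h1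
    · rcases mul_eq_zero.mp h1 with h2 | h2
      · exact NeZero.ne M (by rw [hMT, h2, mul_zero])
      · exact NeZero.ne M (by rw [hMT, h2, mul_zero, zero_mul])
    · exact NeZero.ne M (by rw [hMT, h1, mul_zero, zero_mul])⟩
  have : NeZero (N₁ * q) := ⟨mul_ne_zero (NeZero.ne N₁) hq.ne_zero⟩
  have hprimes : ∀ l : ℕ, l.Prime → (l ∣ N₁ * q ↔ l ∣ M) := fun l hl => by
    rw [hMT, hN₁]
    simp only [hl.dvd_mul]
    tauto
  have hp := (Fact.out : p.Prime)
  have hp2 : p ≠ 2 := C.twHyp.ne_two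
  have hpR : (p : pt.R) ∈ maximalIdeal pt.R :=
    GalRep.natCast_mem_maximalIdeal_of_algebra (𝒪 := O) C.hp
  have h2R : IsUnit (2 : pt.R) := by
    obtain ⟨half, hh⟩ := Galois.exists_half (O := O) hp2
    refine IsUnit.of_mul_eq_one (algebraMap O pt.R half) ?_
    rw [← map_ofNat (algebraMap O pt.R), ← map_mul, hh, map_one]
  -- the two components of the character
  let κR : (ZMod (q * M₁))ˣ →* pt.R := (pt.baseHom : Λ →* pt.R).comp κ
  have hκR : ∀ a, ∃ k : ℕ, κR a ^ p ^ k = 1 := fun a => by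
    obtain ⟨k, hk⟩ := hκ a
    refine ⟨k, ?_⟩
    show pt.baseHom (κ a) ^ p ^ k = 1
    rw [← map_pow, hk, map_one]
  have hκR2 : ∀ a, κR a ^ 2 = 1 → κR a = 1 := fun a ha => by
    obtain ⟨k, hk⟩ := hκR a
    obtain ⟨m, hm⟩ := (hp.odd_of_ne_two hp2).pow (n := k)
    rwa [hm, pow_succ, pow_mul, ha, one_pow, one_mul] at hk
  obtain ⟨κq, κ₁, hsplit, hκq2, hκ₁2⟩ := NewPart.exists_split_char hqM₁ κR hκR2
  have hκq : ∀ a, ∃ k : ℕ, κq a ^ p ^ k = 1 := fun a => by
    obtain ⟨x, hx1, hx2⟩ : ∃ x : (ZMod (q * M₁))ˣ, ZMod.unitsMap (dvd_mul_right q M₁) x = a ∧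
        ZMod.unitsMap (dvd_mul_left M₁ q) x = 1 := by
      let x₀ := Nat.chineseRemainder hqM₁ (a : ZMod q).val 1
      have hc1 : ((x₀ : ℕ) : ZMod q) = a := by
        rw [(ZMod.natCast_eq_natCast_iff _ _ _).mpr x₀.2.1, ZMod.natCast_zmod_val]
      have hc2 : ((x₀ : ℕ) : ZMod M₁) = 1 := by
        rw [(ZMod.natCast_eq_natCast_iff _ _ _).mpr x₀.2.2, Nat.cast_one]
      have hco : (x₀ : ℕ).Coprime (q * M₁) := Nat.Coprime.mul_right
        ((ZMod.isUnit_iff_coprime _ _).mp (by rw [hc1]; exact a.isUnit))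
        ((ZMod.isUnit_iff_coprime _ _).mp (by rw [hc2]; exact isUnit_one))
      exact ⟨ZMod.unitOfCoprime _ hco, Units.ext (by simp [ZMod.unitsMap_def, hc1]),
        Units.ext (by simp [ZMod.unitsMap_def, hc2])⟩
    obtain ⟨k, hk⟩ := hκR x
    exact ⟨k, by rwa [hsplit, hx1, hx2, map_one, mul_one] at hk⟩
  have : NeZero (q * M₁) := ⟨mul_ne_zero hq.ne_zero fun h0 => hsq.ne_zero (by rw [h0, mul_zero])⟩
  have hκ₁res : ∀ a, residue pt.R (κ₁ a) = 1 := fun a => by
    obtain ⟨x, hx⟩ := ZMod.unitsMap_surjective (dvd_mul_left M₁ q) a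
    obtain ⟨k, hk⟩ := hκR x
    obtain ⟨k', hk'⟩ := hκq (ZMod.unitsMap (dvd_mul_right q M₁) x)
    have h1 := residue_eq_one_of_pow hp hpR hk
    rwa [hsplit, map_mul, residue_eq_one_of_pow hp hpR hk', one_mul, hx] at h1
  let E := FractionRing pt.R
  have : CharZero E := charZero_of_injective_algebraMap (IsFractionRing.injective pt.R E)
  obtain ⟨z, hz0, hzeig⟩ := exists_eigen_of_famPoint h (id : Nat.Primes → Nat.Primes) pt V hV hker
  -- twisting away from `q`
  have hθE : ∀ a, pt.fieldChar id θ a =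
      (mapChar κq E (ZMod.unitsMap (dvd_mul_right q M₁) a) *
        mapChar κ₁ E (ZMod.unitsMap (dvd_mul_left M₁ q) a)) ^ 2 := fun a => by
    show algebraMap pt.R E (pt.baseHom (θ a)) =
      (algebraMap pt.R E (κq _) * algebraMap pt.R E (κ₁ _)) ^ 2
    rw [hθ, map_pow, map_pow, ← map_mul, ← hsplit]
    rfl
  have hM' : M * M₁ ∣ N₁ * q := dvd_of_eq (by rw [hMT, hN₁]; ring)
  obtain ⟨Φ, hΦinj, hΦT, hΦU⟩ := exists_twist_part E M₁ (q * M₁) q M h rfl T hMT hcop hsq
    (mapChar κq E) (mapChar κ₁ E) (pt.fieldChar id θ) hθE (fun a ha => by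
      change algebraMap pt.R E (κ₁ a) ^ 2 = 1 at ha
      change algebraMap pt.R E (κ₁ a) = 1
      rw [← map_pow, ← map_one (algebraMap pt.R E)] at ha
      rw [hκ₁2 a (IsFractionRing.injective pt.R E ha), map_one])
    (N₁ * q) (dvd_mul_left q N₁) hM'
  set θq : (ZMod q)ˣ →* pt.R := κq * κq with hθqdef
  have hmap : mapChar κq E * mapChar κq E = mapChar θq E := MonoidHom.ext fun a =>
    (map_mul (algebraMap pt.R E) (κq a) (κq a)).symm
  revert Φ hΦinj hΦT hΦU
  rw [hmap]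
  intro Φ hΦinj hΦT hΦU
  -- eigenvalues
  let xl : Nat.Primes → pt.R := fun l => pt.x (MvPolynomial.X l)
  let b : ℕ → pt.R := fun l => if hl : l.Prime ∧ l.Coprime M₁ then
    κ₁ (ZMod.unitOfCoprime l hl.2) * xl ⟨l, hl.1⟩ else 0
  let a : ℕ → pt.R := fun l => if hl : l.Prime ∧ l.Coprime (q * M₁) then
    κR (ZMod.unitOfCoprime l hl.2) * xl ⟨l, hl.1⟩ else 0
  have hM₁M : M₁ ∣ M := (dvd_mul_left M₁ q).trans h
  have hcopM : ∀ {l : ℕ}, l.Prime → ¬ l ∣ M → l.Coprime (q * M₁) := fun hl hlM =>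
    hl.coprime_iff_not_dvd.mpr fun hd => hlM (hd.trans h)
  have hab : ∀ (l : ℕ) (_ : l.Prime) (_ : ¬ l ∣ N₁ * q) (hlq : l.Coprime q),
      l ∉ ({p} : Finset ℕ) → a l = κq (ZMod.unitOfCoprime l hlq) * b l := fun l hl hlN hlq _ => by
    have hlM : ¬ l ∣ M := fun hd => hlN ((hprimes l hl).mpr hd)
    have h1 : l.Coprime M₁ := (hcopM hl hlM).coprime_dvd_right (dvd_mul_left M₁ q)
    simp only [a, b, dif_pos (And.intro hl (hcopM hl hlM)), dif_pos (And.intro hl h1)]
    rw [hsplit, unitsMap_unitOfCoprime _ hlq, unitsMap_unitOfCoprime _ h1, mul_assoc]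
  have htrl : ∀ (l : ℕ) (hl : l.Prime), ¬ l ∣ M → l ≠ p → ∀ A : ValuationSubring Qb,
      A.LiesOverPrime l → ∀ τ : GQ, A.IsFrobeniusAt τ l → Matrix.trace (rep τ) = a l := by
    intro l hl hlM hlp A hA τ hτ
    rw [trace_frob ⟨l, hl⟩ hlM hlp (hcopM hl hlM) A hA τ hτ, map_mul]
    simp only [a, dif_pos (And.intro hl (hcopM hl hlM))]
    rfl
  -- the residual non-Eisenstein prime
  obtain ⟨l₀, hl₀, hl₀B, hl₀1, hne₀⟩ : ∃ l : ℕ, l.Prime ∧
      l ∉ M.primeFactors ∪ C.Fr.support.image Subtype.val ∧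
      ((N₁ * q ^ 2 : ℕ) : ℤ) ∣ (l : ℤ) - 1 ∧ (C.a l : ZMod p) ≠ (l : ZMod p) + 1 := by
    obtain ⟨l, ⟨hl, hlB⟩, hl1, hal⟩ := (C.nonEis (M.primeFactors ∪
      C.Fr.support.image Subtype.val)).ne_mod (N₁ * q ^ 2)
      (Nat.pos_of_ne_zero (mul_ne_zero (NeZero.ne N₁) (pow_ne_zero 2 hq.ne_zero)))
    exact ⟨l, hl, hlB, hl1, hal⟩
  rw [Finset.mem_union, not_or] at hl₀B
  have hl₀M : ¬ l₀ ∣ M := fun hd => hl₀B.1 (Nat.mem_primeFactors.mpr ⟨hl₀, hd, NeZero.ne _⟩)
  have hl₀s : (⟨l₀, hl₀⟩ : Nat.Primes) ∉ C.Fr.support := fun hm =>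
    hl₀B.2 (Finset.mem_image_of_mem Subtype.val hm)
  have hl₀p : l₀ ≠ p := fun e => hl₀s (by
    rw [show (⟨l₀, hl₀⟩ : Nat.Primes) = ExtCitation.pPrime p from Subtype.ext e]
    exact Finset.mem_insert_self _ _)
  have hneA : residue pt.R (a l₀) ≠ ((l₀ + 1 : ℕ) : ResidueField pt.R) := by
    obtain ⟨A, hA⟩ := RT.exists_liesOverPrime hl₀
    obtain ⟨τ, hτ⟩ := RT.exists_isFrobeniusAt hl₀ hA
    obtain ⟨o, ho, hmem⟩ := trace_residual τ
    rw [← residue_eq_zero_iff, map_sub, sub_eq_zero, ← ResidueField.map_residue, ho,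
      htrl l₀ hl₀ hl₀M hl₀p A hA τ hτ, C.trace_frob ⟨l₀, hl₀⟩ hl₀s A hA τ hτ] at hmem
    intro he
    rw [hmem, ← map_natCast (ResidueField.map (algebraMap O pt.R))] at he
    refine hne₀ ((algebraMap (ZMod p) (ResidueField O)).injective ?_)
    rw [map_intCast, (ResidueField.map (algebraMap O pt.R)).injective he]
    simp
  -- the integral class at level `N₁ q`
  have hl₀N : ¬ l₀ ∣ N₁ * q := fun hd => hl₀M ((hprimes l₀ hl₀).mp hd)
  have hl₀M₁ : l₀.Coprime M₁ := (hcopM hl₀ hl₀M).coprime_dvd_right (dvd_mul_left M₁ q)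
  have hunit : IsUnit (b l₀ - ((l₀ + 1 : ℕ) : pt.R)) := by
    rw [← residue_ne_zero_iff_isUnit, map_sub, sub_ne_zero, map_natCast]
    have hlq : l₀.Coprime q := (hcopM hl₀ hl₀M).coprime_dvd_right (dvd_mul_right q M₁)
    rwa [hab l₀ hl₀ hl₀N hlq (by simpa using hl₀p), map_mul,
      residue_eq_one_of_pow hp hpR (hκq _).choose_spec, one_mul] at hneA
  have hθq1 : θq (-1) = 1 := by
    show κq (-1) * κq (-1) = 1
    rw [← map_mul, neg_mul_neg, one_mul, map_one]
  have hgood : IsGoodChar (levelChar (dvd_mul_left q N₁) θq) :=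
    isGoodChar_levelChar _ hθq1 h2R (three.imp
      (fun h3 => by have h' := h3.map (algebraMap O pt.R); rwa [map_ofNat] at h')
      (fun ⟨r', hr', hr3, hrM⟩ => ⟨r', hr', hr3, (hprimes r' hr').mpr hrM⟩))
  have hqq : (⟨q, hq⟩ : Nat.Primes) ∈ ({l : Nat.Primes | ¬ (l : ℕ) ∣ N₁ * q} ∪
      {⟨q, hq⟩} : Set Nat.Primes) := Or.inr rfl
  have hΦ0 : Φ z ≠ 0 := fun h0 => hz0 (hΦinj (h0.trans (map_zero Φ).symm))
  have heig : ∀ l ∈ ({l : Nat.Primes | ¬ (l : ℕ) ∣ N₁ * q} ∪ {⟨q, hq⟩} : Set Nat.Primes),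
      heckeOp (dvd_mul_left q N₁) (mapChar θq E) E l (Φ z) =
        algebraMap pt.R E (b l) • Φ z := by
    intro l hl
    rcases hl with hl | hl
    · have hlM : ¬ (l : ℕ) ∣ M := fun hd => hl ((hprimes _ l.2).mpr hd)
      have h1 : (l : ℕ).Coprime M₁ := (hcopM l.2 hlM).coprime_dvd_right (dvd_mul_left M₁ q)
      rw [heckeOp_of_not_dvd _ _ _ hl, hΦT _ l.2 hlM hl h1,
        ← heckeOp_of_not_dvd h (pt.fieldChar id θ) E (l := l) hlM]
      have h2 := hzeig l
      dsimp only [id] at h2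
      rw [h2, map_smul, smul_smul]
      simp only [b, dif_pos (And.intro l.2 h1), map_mul]
      rfl
    · rw [Set.mem_singleton_iff] at hl
      subst hl
      have : NeZero ((⟨q, hq⟩ : Nat.Primes) : ℕ) := ⟨hq.ne_zero⟩
      have hqM : q ∣ M := (dvd_mul_right q M₁).trans h
      rw [heckeOp_of_dvd (l := ⟨q, hq⟩) _ _ _ (dvd_mul_left q N₁),
        hΦU q hqM (dvd_mul_left q N₁) hqM₁,
        ← heckeOp_of_dvd h (pt.fieldChar id θ) E (l := ⟨q, hq⟩) hqM]
      have h2 := hzeig ⟨q, hq⟩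
      dsimp only [id] at h2
      rw [h2, map_smul, smul_smul]
      simp only [b, dif_pos (And.intro hq hqM₁), map_mul]
      rfl
  obtain ⟨e₀, he₀, hγ⟩ := exists_integral_eigen (dvd_mul_left q N₁) hgood hΦ0
    (fun l : Nat.Primes => b l) heig (l₀ := ⟨l₀, hl₀⟩) (Or.inl hl₀N) hl₀N
    (by
      have h1 := (ZMod.intCast_zmod_eq_zero_iff_dvd ((l₀ : ℤ) - 1) q).mpr
        ((Int.natCast_dvd_natCast.mpr ⟨N₁ * q, by ring⟩).trans hl₀1)
      push_cast at h1
      exact sub_eq_zero.mp h1) hunit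
  -- the data
  let ρA := DefRing.toAdic rep cont
  have hresR : residue pt.R (b q) = ResidueField.map (algebraMap O pt.R) (residue O α) := by
    simp only [b, dif_pos (And.intro hq hqM₁)]
    rw [map_mul, hκ₁res, one_mul, ResidueField.map_residue, ← sub_eq_zero, ← map_sub,
      residue_eq_zero_iff]
    exact hxq
  have h3 : (3 : ResidueField pt.R) ≠ 0 ∨ ∃ r, r.Prime ∧ r % 3 = 2 ∧ r ∣ N₁ := by
    by_cases h3 : (3 : ResidueField pt.R) = 0
    · right
      rcases three with hu3 | ⟨r', hr', hr3, hrM⟩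
      · refine absurd h3 ?_
        have h' := (residue_ne_zero_iff_isUnit _).mpr (hu3.map (algebraMap O pt.R))
        rwa [map_ofNat, map_ofNat] at h'
      · refine ⟨r', hr', hr3, ((hr'.dvd_mul).mp ((hprimes r' hr').mpr hrM)).resolve_right ?_⟩
        intro hd
        have hrq : r' = q := (Nat.prime_dvd_prime_iff_eq hr' hq).mp hd
        have hp3 : p = 3 := by
          have : CharP (ResidueField pt.R) p := (CharP.charP_iff_prime_eq_zero hp).mpr (by
            rw [← map_natCast (residue pt.R), residue_eq_zero_iff]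
            exact hpR)
          have h3' : ((3 : ℕ) : ResidueField pt.R) = 0 := by exact_mod_cast h3
          rw [CharP.cast_eq_zero_iff (ResidueField pt.R) p] at h3'
          exact (Nat.prime_dvd_prime_iff_eq hp Nat.prime_three).mp h3'
        subst hp3
        have h1 : ((q : ℕ) : ZMod 3) = ((1 : ℕ) : ZMod 3) := by simpa using hq1
        rw [ZMod.natCast_eq_natCast_iff'] at h1
        omega
    · exact Or.inl h3
  have hirr := C.residual_no_char rep det_eq trace_residual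
  obtain ⟨d⟩ := nonempty_twistData hpR hp hp2 hq hqN₁ hqp hq1 h3 κq θq hκq
    (fun x => (sq (κq x)).symm) e₀ hγ (b q)
    (by
      have : NeZero ((⟨q, hq⟩ : Nat.Primes) : ℕ) := ⟨hq.ne_zero⟩
      rw [← heckeOp_of_dvd (l := ⟨q, hq⟩) (dvd_mul_left q N₁) θq pt.R (dvd_mul_left q N₁)]
      exact he₀ ⟨q, hq⟩ hqq)
    (by rw [hresR]; exact fun h0 => hα0 (by rwa [map_eq_zero] at h0))
    (by
      rw [hresR, ← map_pow, ← map_one (ResidueField.map (algebraMap O pt.R))]
      exact fun he => hα2 ((ResidueField.map (algebraMap O pt.R)).injective he))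
    ρA {p} a b
    (fun l hl hlN _ => by
      rw [← heckeOp_of_not_dvd (l := ⟨l, hl⟩) (dvd_mul_left q N₁) θq pt.R hlN]
      exact he₀ ⟨l, hl⟩ (Or.inl hlN))
    hab
    (fun l hl hlN hlS A hA τ hτ => by
      have hlp : l ≠ p := by simpa using hlS
      have hlM : ¬ l ∣ M := fun hd => hlN (((hprimes l hl).mpr hd).trans ⟨q, by ring⟩)
      rw [charpoly_toAdic, htrl l hl hlM hlp A hA τ hτ, det_eq,
        C.χ_frobenius hl hlp hA hτ, map_natCast])
    hl₀ (by simpa using hl₀p)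
    (fun hd => by
      rcases hl₀.dvd_mul.mp hd with h1 | h1
      · exact hl₀N (h1.mul_right _)
      · exact hl₀N ((hl₀.dvd_of_dvd_pow h1).trans (dvd_mul_left q N₁)))
    hl₀1 hneA (fun s hs => hirr s fun τ => by
      have h1 := hs τ
      rw [show ρA.ρ τ = Matrix.toLin' (rep τ) from rfl] at h1
      erw [LinearMap.det_toLin', Matrix.trace_toLin'_eq] at h1
      exact h1)
  -- the conclusion
  have hmain := TWLocal.inertiaTrace_of_twistData d P hP σ hσ (ZMod.unitsMap (dvd_mul_right q M₁) u) hz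
  have hκu : ∀ v : (ZMod (q * M₁))ˣ, ZMod.unitsMap (dvd_mul_left M₁ q) v = 1 →
      pt.baseHom (κ v) = κq (ZMod.unitsMap (dvd_mul_right q M₁) v) := fun v hv => by
    rw [show pt.baseHom (κ v) = κR v from rfl, hsplit, hv, map_one, mul_one]
  have hu1 := hu M₁ (dvd_mul_left M₁ q) hqM₁.symm
  rw [map_add, hκu u hu1, hκu u⁻¹ (by rw [map_inv, hu1, inv_one]), map_inv]
  refine Eq.trans (Matrix.trace_toLin'_eq (rep σ)).symm ?_
  exact hmain

end FermatAgent.RTLift.Setup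

end
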