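import Fermat.Agent.RTLift.Setup.Points.Family
import Fermat.Agent.RTLift.Setup.Points.TWData

/-!
# Inertia at a Taylor–Wiles prime
-/

set_option autoImplicit false

noncomputable section

namespace FermatAgent.RTLift.Setup

open IsLocalRing FermatAgent.RTLift.Modules FermatAgent.RTLift.Engine FermatAgent.RTLift.Systems

local notation "Qb" => AlgebraicClosure ℚ
local notation "GQ" => AlgebraicClosure ℚ ≃ₐ[ℚ] AlgebraicClosure ℚ

variable {O : Type} [CommRing O] [IsDomain O] [IsDiscreteValuationRing O]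
  [IsAdicComplete (maximalIdeal O) O] [Finite (ResidueField O)] [CharZero O]
  {p r : ℕ} [Fact p.Prime] [Algebra (ZMod p) (ResidueField O)] {I : Type} [Fintype I]
  {C : Ctx O p r I} {n : ℕ} {L : List (Option I)}

omit [Finite (ResidueField O)] [CharZero O] in
/-- A unit trivial at all Taylor–Wiles primes but one is trivial modulo their divisors prime to
that one. -/
theorem Ctx.unitsMap_eq_one_of_components (C : Ctx O p r I) {n : ℕ} (j : Fin r)
    (u : (ZMod (C.modulus n))ˣ)
    (hu : ∀ i, i ≠ j → ZMod.unitsMap (Finset.dvd_prod_of_mem (fun j => (C.Q n j : ℕ))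
      (Finset.mem_univ i)) u = 1)
    (d : ℕ) (hd : d ∣ C.modulus n) (hdq : d.Coprime (C.Q n j : ℕ)) :
    ZMod.unitsMap hd u = 1 := by
  classical
  have hm : C.modulus n ≠ 0 := Finset.prod_ne_zero_iff.mpr fun i _ => (C.Q n i).2.ne_zero
  have : NeZero (C.modulus n) := ⟨hm⟩
  have hcast : ∀ (e : ℕ) (he : e ∣ C.modulus n),
      ZMod.unitsMap he u = 1 ↔ (e : ℤ) ∣ ((u : ZMod (C.modulus n)).val : ℤ) - 1 := fun e he => by
    rw [← ZMod.intCast_zmod_eq_zero_iff_dvd, Units.ext_iff, Units.val_one, ZMod.unitsMap_def,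
      Units.coe_map, MonoidHom.coe_coe, ZMod.castHom_apply, ← ZMod.natCast_val]
    push_cast
    exact sub_eq_zero.symm
  have hd' : d ∣ ∏ i ∈ Finset.univ.erase j, (C.Q n i : ℕ) := by
    refine hdq.dvd_of_dvd_mul_left ?_
    rwa [Finset.mul_prod_erase Finset.univ (fun i => (C.Q n i : ℕ)) (Finset.mem_univ j)]
  rw [hcast]
  refine (Int.natCast_dvd_natCast.mpr hd').trans ?_
  rw [Nat.cast_prod]
  refine Finset.prod_dvd_of_coprime (fun a _ b _ hab => ?_) fun i hi => ?_
  · exact Nat.isCoprime_iff_coprime.mpr ((Nat.coprime_primes (C.Q n a).2 (C.Q n b).2).mpr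
      fun e => hab (C.Q_injective n (Subtype.ext e)))
  · exact (hcast _ _).mp (hu i (Finset.ne_of_mem_erase hi))

set_option maxHeartbeats 1000000 in
/-- Inertia at `Q n j` has the eigenvalues `κ^{±1}`. -/
theorem PointData.trace_tw_ofFamPoint (hL : C.Admissible L) (pt : LvlPt C n L)
    (hres : IsResidualPoint pt)
    (hker : ∀ s, (∀ y ∈ C.V n L, heckeHom (R := Diamond O r p n) (C.modulus_dvd_lvl n L) (C.θ n)
      (Diamond O r p n) (id : Nat.Primes → Nat.Primes) s y = 0) → pt.x s = 0)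
    (j : Fin r) (P : ValuationSubring Qb) (hP : P.LiesOverPrime (C.Q n j : ℕ)) (σ : GQ)
    (hσ : σ ∈ P.inertiaSubgroupIn ℚ) (u : (ZMod (C.modulus n))ˣ)
    (hu : ∀ i, i ≠ j → ZMod.unitsMap (Finset.dvd_prod_of_mem (fun j => (C.Q n j : ℕ))
      (Finset.mem_univ i)) u = 1)
    (hz : ∀ z : Qb, z ^ (C.Q n j : ℕ) = 1 → σ z = z ^ ((ZMod.unitsMap (Finset.dvd_prod_of_mem
      (fun j => (C.Q n j : ℕ)) (Finset.mem_univ j)) u : ZMod (C.Q n j : ℕ))).val) :
    Matrix.trace ((PointData.ofFamPoint pt hres).rep σ) =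
      pt.x (MvPolynomial.C (C.κ n u + C.κ n u⁻¹)) := by
  classical
  have := C.finite_diamond n
  have := C.isReduced_diamond n
  have hgood := C.isGoodChar_lvl n hL
  have := finite_h1 (R := O) (A := Diamond O r p n) (C.modulus_dvd_lvl n L) (C.θ n) hgood
  have : Module.Finite O (C.V n L) :=
    Module.Finite.of_injective ((C.V n L).subtype.restrictScalars O) Subtype.val_injective
  obtain ⟨α, hα⟩ := residue_surjective (C.α n j)
  have hroots := C.roots_prod n j
  have hα0 : residue O α ≠ 0 := by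
    rw [hα]
    exact left_ne_zero_of_mul (hroots.symm ▸ one_ne_zero)
  have hα2 : residue O α ^ 2 ≠ 1 := fun he => C.roots_ne n j <| by
    rw [hα, sq] at he
    rw [hα] at hα0
    exact mul_left_cancel₀ hα0 (he.trans hroots.symm)
  have hxq := x_X_sub_mem (f := (Subtype.val : C.J → Nat.Primes)) pt hres
    ⟨C.Q n j, C.Q_notMem n j⟩ (hα.trans (C.ξ_Q n j (C.Q_notMem n j)).symm)
  have hq1 : ((C.Q n j : ℕ) : ZMod p) = 1 := by
    have h1 : p ∣ (C.Q n j : ℕ) - 1 := (dvd_pow_self p n.succ_ne_zero).trans (C.Q_dvd n j)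
    rw [← ZMod.natCast_eq_zero_iff, Nat.cast_sub (C.Q n j).2.one_le, sub_eq_zero,
      Nat.cast_one] at h1
    exact h1
  have hqp : (C.Q n j : ℕ) ≠ p := fun e => C.Q_notMem n j (by
    rw [show C.Q n j = ExtCitation.pPrime p from Subtype.ext e]
    exact Finset.mem_insert_self _ _)
  refine Eq.trans (C.trace_inertia_of_twistedPoint (C.modulus_dvd_lvl n L) (C.lvl_eq n L)
    (C.squarefree_modulus n) (C.coprime_modulus_base n L) (C.theta_eq n)
    (fun a => ⟨n, C.kappa_pow n a⟩) pt (C.V n L)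
    (fun s y hy => heckeHom_mem_localH1 (C.modulus_dvd_lvl n L) (C.θ n) C.pr _
      (f := (Subtype.val : C.J → Nat.Primes)) (fun _ => rfl) (C.ξ n) s hy) hker ?_
    (PointData.ofFamPoint pt hres).rep (PointData.ofFamPoint pt hres).cont
    (PointData.ofFamPoint pt hres).det_eq (PointData.ofFamPoint pt hres).trace_residual ?_
    (C.Q n j).2 (Finset.dvd_prod_of_mem (fun j => (C.Q n j : ℕ)) (Finset.mem_univ j)) hqp hq1
    hα0 hα2 hxq P hP σ hσ u (fun d hd hdq => C.unitsMap_eq_one_of_components j u hu d hd hdq) hz)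
    (pt.baseHom_apply _)
  · refine hL.three.imp id fun ⟨i, hi, hi3⟩ => ⟨(C.Fr.q i : ℕ), (C.Fr.q i).2, hi3, ?_⟩
    have hdvd : ∀ L' : List (Option I), some i ∈ L' → (C.place (some i) : ℕ) ∣ C.lvl n L' := by
      intro L'
      induction L' with
      | nil => simp
      | cons k L' ih =>
        intro hm
        rcases List.mem_cons.mp hm with rfl | hm
        · exact dvd_mul_left _ _
        · exact (ih hm).mul_right _
    exact hdvd L hi
  · intro l hl hlp hcop A hA φ hφ
    refine ((PointData.ofFamPoint pt hres).trace_frob ⟨l, hl, l.2.ne_zero⟩ hlp A hA φ hφ).trans ?_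
    rw [PointData.ofFamPoint_x, map_mul (MvPolynomial.rename _), MvPolynomial.rename_C,
      MvPolynomial.rename_X, Ctx.κv, dif_pos hcop]

end FermatAgent.RTLift.Setup

end
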