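import Fermat.Agent.RTLift.Setup.Ctx
import Mathlib.RepresentationTheory.Maschke

/-!
# The diamond ring is reduced, and the square root of the diamond character has odd order
-/

set_option autoImplicit false

noncomputable section

namespace FermatAgent.RTLift.Setup

open IsLocalRing FermatAgent.RTLift.Engine

variable {O : Type} [CommRing O] [IsDomain O] [IsDiscreteValuationRing O]
  [IsAdicComplete (maximalIdeal O) O] {p : ℕ} [Fact p.Prime]

/-- The group algebra of a finite commutative group over a domain of characteristic zero is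
reduced. -/
theorem isReduced_monoidAlgebra (O G : Type) [CommRing O] [IsDomain O] [CharZero O] [CommGroup G]
    [Finite G] : IsReduced (MonoidAlgebra O G) := by
  have : NeZero (Nat.card G : FractionRing O) := ⟨Nat.cast_ne_zero.mpr Nat.card_pos.ne'⟩
  exact isReduced_of_injective (MonoidAlgebra.mapRingHom G (algebraMap O (FractionRing O)))
    (MonoidAlgebra.map_injective _ (IsFractionRing.injective O (FractionRing O)))

theorem isReduced_diamond [CharZero O] (hp : (p : ResidueField O) = 0) (r n : ℕ) :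
    IsReduced (Diamond O r p n) := by
  have : NeZero (p ^ n) := ⟨pow_ne_zero n (Fact.out : p.Prime).ne_zero⟩
  obtain ⟨e, -⟩ := exists_diamond_equiv (O := O) hp r n
  have := isReduced_monoidAlgebra O (DiamondGroup r p n)
  exact isReduced_of_injective e.symm e.symm.injective

variable [Algebra (ZMod p) (ResidueField O)] {r : ℕ} {I : Type} [Fintype I] (C : Ctx O p r I)

theorem Ctx.residue_p (C : Ctx O p r I) : (p : ResidueField O) = 0 := by
  rw [← map_natCast (residue O), residue_eq_zero_iff]
  exact C.hp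

theorem Ctx.isTorsionFree_diamond (C : Ctx O p r I) (n : ℕ) : Module.IsTorsionFree O (Diamond O r p n) :=
  have := (finite_free_diamond C.residue_p r n).2
  inferInstance

theorem Ctx.isReduced_diamond (C : Ctx O p r I) [CharZero O] (n : ℕ) : IsReduced (Diamond O r p n) :=
  Setup.isReduced_diamond C.residue_p r n

theorem Ctx.kappa_pow (n : ℕ) (u : (ZMod (C.modulus n))ˣ) : C.κ n u ^ p ^ n = 1 := by
  show diamondUnit O r n _ ^ p ^ n = 1
  rw [← map_pow]
  have hG : ∀ g : DiamondGroup r p n, g ^ p ^ n = 1 := fun g => funext fun j => by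
    rw [Pi.pow_apply, Pi.one_apply, ← ofAdd_toAdd (g j), ← ofAdd_nsmul, nsmul_eq_mul,
      ZMod.natCast_self, zero_mul, ofAdd_zero]
  rw [hG, map_one]

theorem Ctx.exists_odd_kappa_pow (n : ℕ) (u : (ZMod (C.modulus n))ˣ) :
    ∃ k : ℕ, Odd k ∧ C.κ n u ^ k = 1 :=
  ⟨p ^ n, ((Fact.out : p.Prime).odd_of_ne_two C.twHyp.ne_two).pow, C.kappa_pow n u⟩

theorem Ctx.theta_eq (n : ℕ) (u : (ZMod (C.modulus n))ˣ) : C.θ n u = C.κ n u ^ 2 := by
  rw [Ctx.θ, MonoidHom.mul_apply, sq]

theorem Ctx.squarefree_modulus (n : ℕ) : Squarefree (C.modulus n) :=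
  Finset.squarefree_prod_of_pairwise_isCoprime (fun i _ j _ hij =>
    Nat.coprime_iff_isRelPrime.mp ((Nat.coprime_primes (C.Q n i).2 (C.Q n j).2).mpr
      fun e => hij (C.Q_injective n (Subtype.ext e)))) fun j _ => (C.Q n j).2.squarefree

theorem Ctx.place_ne_Q (n : ℕ) (i : Option I) (j : Fin r) : C.place i ≠ C.Q n j := by
  intro e
  refine C.Q_notMem n j (e ▸ ?_)
  rcases i with _ | i
  · exact Finset.mem_insert_self _ _
  · exact Finset.mem_insert_of_mem (Finset.mem_image_of_mem _ (Finset.mem_univ i))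

theorem Ctx.coprime_modulus_base (n : ℕ) :
    ∀ L : List (Option I), (C.modulus n).Coprime (C.base L)
  | [] => Nat.coprime_one_right _
  | i :: L => (Ctx.coprime_modulus_base n L).mul_right
      ((C.coprime_modulus fun j e => C.place_ne_Q n i j e.symm).symm)

theorem Ctx.coprime_modulus_lvl (n : ℕ) (L : List (Option I)) :
    (C.modulus n).Coprime (C.lvl n L / C.modulus n) := by
  rw [C.lvl_eq, Nat.mul_div_cancel_left _ (Nat.pos_of_ne_zero (show C.modulus n ≠ 0 from
    Finset.prod_ne_zero_iff.mpr fun j _ => (C.Q n j).2.ne_zero))]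
  exact C.coprime_modulus_base n L

/-- A prime dividing a level is a place or a Taylor–Wiles prime. -/
theorem Ctx.dvd_lvl_cases {n : ℕ} {L : List (Option I)} {l : Nat.Primes}
    (h : (l : ℕ) ∣ C.lvl n L) : (∃ i ∈ L, C.place i = l) ∨ ∃ j, C.Q n j = l := by
  induction L with
  | nil =>
    obtain ⟨j, -, hj⟩ := (Prime.dvd_finsetProd_iff (Nat.prime_iff.mp l.2) _).mp
      (show (l : ℕ) ∣ ∏ j, (C.Q n j : ℕ) from h)
    exact Or.inr ⟨j, Subtype.ext ((Nat.prime_dvd_prime_iff_eq l.2 (C.Q n j).2).mp hj).symm⟩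
  | cons i L ih =>
    rcases l.2.dvd_mul.mp h with h | h
    · rcases ih h with ⟨i', hi', e⟩ | hj
      · exact Or.inl ⟨i', List.mem_cons_of_mem _ hi', e⟩
      · exact Or.inr hj
    · exact Or.inl ⟨i, List.mem_cons_self, Subtype.ext
        ((Nat.prime_dvd_prime_iff_eq l.2 (C.place i).2).mp h).symm⟩

end FermatAgent.RTLift.Setup
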