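import Fermat.Agent.RTLift.Setup.PointData
import Fermat.Agent.RTLift.Setup.Points.Diamond
import Fermat.Agent.GalRep.Density.Frobenius
import Fermat.Agent.GalRep.Construct.Datum

/-!
# The point data of a point of a family
-/

set_option autoImplicit false

noncomputable section

namespace FermatAgent.RTLift.Setup

open IsLocalRing FermatAgent.RTLift.Modules FermatAgent.RTLift.Engine FermatAgent.RTLift.Systems
  FermatAgent.GalRep CuspForm Polynomial

local notation "Qb" => AlgebraicClosure ℚ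
local notation "GQ" => AlgebraicClosure ℚ ≃ₐ[ℚ] AlgebraicClosure ℚ

/-- The canonical maps from `ℤ_p` commute with local homomorphisms. -/
theorem map_padicToRing {p : ℕ} [Fact p.Prime] {R R' : Type} [CommRing R] [IsLocalRing R]
    [IsAdicComplete (maximalIdeal R) R] [CommRing R'] [IsLocalRing R']
    [IsAdicComplete (maximalIdeal R') R'] (f : R →+* R') [IsLocalHom f]
    (hp : (p : R) ∈ maximalIdeal R) (hp' : (p : R') ∈ maximalIdeal R') (z : ℤ_[p]) :
    f (padicToRing hp z) = padicToRing hp' z := by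
  refine eq_of_forall_sub_mem_pow fun n => ?_
  have hd : (p : ℤ_[p]) ^ n ∣ z - (z.appr n : ℕ) :=
    Ideal.mem_span_singleton.mp (PadicInt.appr_spec n z)
  have h1 := padicToRing_mem_pow hp hd
  have h2 := padicToRing_mem_pow hp' hd
  rw [map_sub, map_natCast] at h1 h2
  have h3 : (maximalIdeal R ^ n).map f ≤ maximalIdeal R' ^ n := by
    rw [Ideal.map_pow]
    exact Ideal.pow_right_mono (Ideal.map_le_iff_le_comap.mpr fun a ha =>
      Ideal.mem_comap.mpr (map_nonunit f a ha)) n
  have h4 := Ideal.sub_mem _ (h3 (Ideal.mem_map_of_mem f h1)) h2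
  rwa [map_sub, map_natCast, sub_sub_sub_cancel_right] at h4

/-- A root of unity of `p`-power order reduces to `1` in residue characteristic `p`. -/
theorem sub_one_mem_maximalIdeal_of_pow {p k : ℕ} [Fact p.Prime] {R : Type} [CommRing R]
    [IsLocalRing R] (hp : (p : R) ∈ maximalIdeal R) {z : R} (hz : z ^ p ^ k = 1) :
    z - 1 ∈ maximalIdeal R := by
  have : CharP (ResidueField R) p := (CharP.charP_iff_prime_eq_zero Fact.out).mpr (by
    rw [← map_natCast (residue R), residue_eq_zero_iff]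
    exact hp)
  rw [← residue_eq_zero_iff, map_sub, map_one]
  refine eq_zero_of_pow_eq_zero (n := p ^ k) ?_
  rw [sub_pow_char_pow, ← map_pow, hz, map_one, one_pow, sub_self]

variable {O : Type} [CommRing O] [IsDomain O] [IsDiscreteValuationRing O]
  [IsAdicComplete (maximalIdeal O) O]
  {p r : ℕ} [Fact p.Prime] [Algebra (ZMod p) (ResidueField O)] {I : Type} [Fintype I]
  {C : Ctx O p r I} {n : ℕ} {L : List (Option I)}

/-- The type of the points of a level. -/
abbrev LvlPt (C : Ctx O p r I) (n : ℕ) (L : List (Option I)) : Type 1 :=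
  FamPoint O (Diamond O r p n) (id : Nat.Primes → Nat.Primes) (C.κ n) (C.hlvl n L)
    (↑(C.hlvl n L).primeFactors : Set ℕ)

/-- A point reduces to the residual system on the symbols cutting out local parts. -/
def IsResidualPoint (pt : LvlPt C n L) : Prop :=
  ∀ t ∈ systemIdeal (C.ξ n), pt.x (symbolHom Subtype.val t) ∈ maximalIdeal pt.R

theorem x_C_mul_X (pt : LvlPt C n L) {l : Nat.Primes} (hl : ¬ (l : ℕ) ∣ C.lvl n L) :
    pt.χ (heckeAlgebra.T l.2 (C.not_dvd_hlvl l.2 hl) (C.notMem_primeFactors_hlvl l.2 hl)) =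
      pt.x (MvPolynomial.C (C.κv n l) * MvPolynomial.X l) := by
  have hcop : (l : ℕ).Coprime (C.modulus n) :=
    (l.2.coprime_iff_not_dvd).mpr fun hd => hl (hd.trans (C.modulus_dvd_lvl n L))
  rw [Ctx.κv, dif_pos hcop]
  exact pt.χ_T l _ _ hcop

/-- **The representation of a residual point of a family.** The level `N` of the Hecke algebra
has the prime factors of `Lv`, a multiple of the modulus of the step and of the modulus of `κ`. -/
theorem exists_rep_famPoint {M Lv N : ℕ} [NeZero N] (hQ' : C.modulus n ∣ Lv) (hM : M ∣ Lv)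
    (hLv : Lv ∣ N) (hN : ∀ {l : ℕ}, l.Prime → ¬ l ∣ Lv → ¬ l ∣ N)
    {κ : (ZMod M)ˣ →* Diamond O r p n} {κv : Nat.Primes → Diamond O r p n}
    (hκv : ∀ (l : Nat.Primes) (h : (l : ℕ).Coprime M), κv l = κ (ZMod.unitOfCoprime l h))
    {k : ℕ} (hk : ∀ l, κv l ^ p ^ k = 1)
    (pt : FamPoint O (Diamond O r p n) (id : Nat.Primes → Nat.Primes) κ N
      (↑N.primeFactors : Set ℕ))
    (hres : ∀ t ∈ systemIdeal (C.ξ n), pt.x (symbolHom Subtype.val t) ∈ maximalIdeal pt.R) :
    ∃ rep : GQ →* Matrix (Fin 2) (Fin 2) pt.R, DefRing.IsCont rep ∧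
      (∀ σ, (rep σ).det = algebraMap O pt.R (C.χ σ)) ∧
      (∀ σ, ∃ o : O,
        residue O o = Matrix.trace (C.ρ σ : Matrix (Fin 2) (Fin 2) (ResidueField O)) ∧
          Matrix.trace (rep σ) - algebraMap O pt.R o ∈ maximalIdeal pt.R) ∧
      (∀ l : Nat.Primes, ¬ (l : ℕ) ∣ Lv → (l : ℕ) ≠ p → ∀ P : ValuationSubring Qb,
        P.LiesOverPrime (l : ℕ) → ∀ φ : GQ, P.IsFrobeniusAt φ (l : ℕ) →
          Matrix.trace (rep φ) = pt.x (MvPolynomial.C (κv l) * MvPolynomial.X l)) ∧
      ∀ ℓ : Nat.Primes, (ℓ : ℕ) ≠ p → ¬ (ℓ : ℕ) ∣ Lv →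
        ∀ P : ValuationSubring Qb, P.LiesOverPrime (ℓ : ℕ) →
          ∀ σ ∈ P.inertiaSubgroupIn ℚ, rep σ = 1 := by
  classical
  let S₂ : Finset ℕ := insert p N.primeFactors
  have hS₂ : (N.primeFactors : Set ℕ) ⊆ (↑S₂ : Set ℕ) :=
    Finset.coe_subset.mpr (Finset.subset_insert _ _)
  let pt' : FamPoint O (Diamond O r p n) (id : Nat.Primes → Nat.Primes) κ N
      (↑S₂ : Set ℕ) :=
    { R := pt.R
      injective := pt.injective
      x := pt.x
      χ := pt.χ.comp (Subalgebra.inclusion (heckeAlgebra_mono hS₂)).toRingHom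
      χ_T := fun j hlN hlS hlM => pt.χ_T j hlN (fun hm => hlS (hS₂ hm)) hlM }
  obtain ⟨hpR, ρ, hcp, hunr, hdet⟩ := exists_galoisRep_famPoint p C.hp
    (Finset.mem_insert_self _ _) (fun q hq hd => Finset.mem_insert_of_mem
      (Nat.mem_primeFactors.mpr ⟨hq, hd, NeZero.ne _⟩)) pt'
  let b := DefRing.stdBasis ρ
  refine ⟨DefRing.matrixOf b ρ.ρ, DefRing.isCont_matrixOf ρ b, ?_⟩
  have hdet' : ∀ σ, (DefRing.matrixOf b ρ.ρ σ).det = algebraMap O pt.R (C.χ σ) := fun σ => by
    rw [DefRing.matrixOf_apply, LinearMap.det_toMatrix, hdet]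
    exact (map_padicToRing (algebraMap O pt.R) C.hp hpR _).symm
  have htr : ∀ l : Nat.Primes, ¬ (l : ℕ) ∣ Lv → (l : ℕ) ≠ p → ∀ P : ValuationSubring Qb,
      P.LiesOverPrime (l : ℕ) → ∀ φ : GQ, P.IsFrobeniusAt φ (l : ℕ) →
        Matrix.trace (DefRing.matrixOf b ρ.ρ φ) =
          pt.x (MvPolynomial.C (κv l) * MvPolynomial.X l) := by
    intro l hl hlp P hP φ hφ
    have hcop : (l : ℕ).Coprime M :=
      (l.2.coprime_iff_not_dvd).mpr fun hd => hl (hd.trans hM)
    have hlS : (l : ℕ) ∉ (↑S₂ : Set ℕ) := by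
      rw [Finset.coe_insert, Set.mem_insert_iff, not_or]
      exact ⟨hlp, fun hm => hN l.2 hl (Nat.dvd_of_mem_primeFactors hm)⟩
    have h := trace_pow_of_charpoly ρ.finrank_eq _ _ _ (hcp l hlS hcop P hP φ hφ) 1
    rw [pow_one, LinearMap.trace_eq_matrix_trace pt.R b] at h
    rw [DefRing.matrixOf_apply, h, hκv l hcop]
    rfl
  refine ⟨hdet', fun σ => ?_, htr, fun ℓ hℓp hℓ P hP σ hσ => ?_⟩
  · -- the residual traces
    let k' := ResidueField pt.R
    let f : ResidueField O →+* k' := ResidueField.map (algebraMap O pt.R)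
    let F : GQ →* GL (Fin 2) (ResidueField O) × Matrix (Fin 2) (Fin 2) k' :=
      C.ρ.prod (DefRing.mapRep (residue pt.R) (DefRing.matrixOf b ρ.ρ))
    have hF : GaloisFactorsThroughFiniteLevel F := by
      obtain ⟨L₁, hL₁, h₁⟩ := C.twHyp.finiteLevel
      obtain ⟨L₂, hL₂, h₂⟩ := DefRing.isCont_matrixOf ρ b 1
      refine ⟨L₁ ⊔ L₂, IntermediateField.finiteDimensional_sup L₁ L₂, fun τ hτ => Prod.ext
        (h₁ τ ((IntermediateField.mem_fixingSubgroup_iff _ _).mpr fun x hx =>
          hτ x (le_sup_left (b := L₂) hx))) (Matrix.ext fun i j => ?_)⟩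
      have h3 := h₂ τ (fun x hx => hτ x (le_sup_right (a := L₁) hx)) i j
      rw [pow_one, ← residue_eq_zero_iff, Matrix.sub_apply, map_sub, sub_eq_zero] at h3
      show residue pt.R (DefRing.matrixOf b ρ.ρ τ i j) = (1 : Matrix (Fin 2) (Fin 2) k') i j
      rw [h3]
      rcases eq_or_ne i j with rfl | hij
      · simp
      · simp [Matrix.one_apply_ne hij]
    let B : Set ℕ := ↑N.primeFactors ∪ ↑(C.Fr.support.image Subtype.val)
    have hB : B.Finite := (Finset.finite_toSet _).union (Finset.finite_toSet _)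
    have key := forall_of_frobenius F hF hB
      (fun z => f (Matrix.trace (z.1 : Matrix (Fin 2) (Fin 2) (ResidueField O))) = z.2.trace ∧
        f (Matrix.det (z.1 : Matrix (Fin 2) (Fin 2) (ResidueField O))) = z.2.det)
      (fun z m hz => ⟨by
        rw [Prod.pow_fst, Prod.pow_snd, Units.val_pow_eq_pow_val, trace_pow_eq_powTrace,
          trace_pow_eq_powTrace, map_powTrace, hz.1, hz.2], by
        rw [Prod.pow_fst, Prod.pow_snd, Units.val_pow_eq_pow_val, Matrix.det_pow, Matrix.det_pow,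
          map_pow, hz.2]⟩)
      (fun q hq hqB A hA τ hτ => by
        obtain ⟨hqN, hqs⟩ := not_or.mp hqB
        set l : Nat.Primes := ⟨q, hq⟩
        have hls : l ∉ C.Fr.support := fun h =>
          hqs (Finset.mem_image_of_mem Subtype.val h)
        have hlp : (l : ℕ) ≠ p := fun e => hls (by
          rw [show l = ExtCitation.pPrime p from Subtype.ext e]
          exact Finset.mem_insert_self _ _)
        have hll : ¬ (l : ℕ) ∣ Lv := fun h => hqN (Nat.mem_primeFactors.mpr
          ⟨hq, h.trans hLv, NeZero.ne _⟩)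
        have hQ : ∀ j, C.Q n j ≠ l := fun j e => hll (by
          rw [← e]
          exact (Finset.dvd_prod_of_mem (fun j => (C.Q n j : ℕ)) (Finset.mem_univ j)).trans
            hQ')
        refine ⟨?_, ?_⟩
        · obtain ⟨c, hc⟩ := residue_surjective (C.ξ n ⟨l, hls⟩)
          have h1 := x_X_sub_mem (f := (Subtype.val : C.J → Nat.Primes)) pt hres ⟨l, hls⟩ hc
          have h2 : pt.x (MvPolynomial.C (κv l)) - 1 ∈ maximalIdeal pt.R := by
            exact sub_one_mem_maximalIdeal_of_pow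
              (natCast_mem_maximalIdeal_of_algebra (𝒪 := O) C.hp) (k := k)
              (by rw [← map_pow, ← map_pow, hk, map_one, map_one])
          rw [← residue_eq_zero_iff, map_sub, sub_eq_zero] at h1 h2
          have h3 := C.trace_frob l hls A hA τ hτ
          show f (Matrix.trace (C.ρ τ : Matrix (Fin 2) (Fin 2) (ResidueField O))) =
            Matrix.trace ((residue pt.R).mapMatrix (DefRing.matrixOf b ρ.ρ τ))
          rw [h3, RingHom.mapMatrix_apply]
          refine Eq.trans ?_ (AddMonoidHom.map_trace (residue pt.R).toAddMonoidHom _)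
          change _ = residue pt.R (Matrix.trace (DefRing.matrixOf b ρ.ρ τ))
          rw [htr l hll hlp A hA τ hτ, map_mul, map_mul, h2, h1, map_one, one_mul,
            ← ResidueField.map_residue, hc, C.ξ_of_ne n ⟨l, hls⟩ hQ, Ctx.ξ₀]
        · show f (Matrix.det (C.ρ τ : Matrix (Fin 2) (Fin 2) (ResidueField O))) =
            Matrix.det ((residue pt.R).mapMatrix (DefRing.matrixOf b ρ.ρ τ))
          rw [← RingHom.map_det, hdet', ← ResidueField.map_residue, ← C.det_cyclo]
          rfl) σ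
    obtain ⟨o, ho⟩ := residue_surjective
      (Matrix.trace (C.ρ σ : Matrix (Fin 2) (Fin 2) (ResidueField O)))
    refine ⟨o, ho, ?_⟩
    rw [← residue_eq_zero_iff, map_sub, sub_eq_zero, ← ResidueField.map_residue, ho]
    exact ((AddMonoidHom.map_trace (residue pt.R).toAddMonoidHom _).trans key.1.symm)
  · have h := hunr ℓ ℓ.2 (hN ℓ.2 hℓ) hℓp P hP σ hσ
    rw [DefRing.matrixOf_apply, h, LinearMap.toMatrix_one]

/-- **The representation of a residual point.** -/
theorem exists_rep (pt : LvlPt C n L) (hres : IsResidualPoint pt) :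
    ∃ rep : GQ →* Matrix (Fin 2) (Fin 2) pt.R, DefRing.IsCont rep ∧
      (∀ σ, (rep σ).det = algebraMap O pt.R (C.χ σ)) ∧
      (∀ σ, ∃ o : O,
        residue O o = Matrix.trace (C.ρ σ : Matrix (Fin 2) (Fin 2) (ResidueField O)) ∧
          Matrix.trace (rep σ) - algebraMap O pt.R o ∈ maximalIdeal pt.R) ∧
      (∀ l : Nat.Primes, ¬ (l : ℕ) ∣ C.lvl n L → (l : ℕ) ≠ p → ∀ P : ValuationSubring Qb,
        P.LiesOverPrime (l : ℕ) → ∀ φ : GQ, P.IsFrobeniusAt φ (l : ℕ) →
          Matrix.trace (rep φ) = pt.x (MvPolynomial.C (C.κv n l) * MvPolynomial.X l)) ∧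
      ∀ ℓ : Nat.Primes, (ℓ : ℕ) ≠ p → ¬ (ℓ : ℕ) ∣ C.lvl n L →
        ∀ P : ValuationSubring Qb, P.LiesOverPrime (ℓ : ℕ) →
          ∀ σ ∈ P.inertiaSubgroupIn ℚ, rep σ = 1 :=
  exists_rep_famPoint (C.modulus_dvd_lvl n L) (C.modulus_dvd_lvl n L) (dvd_mul_right _ _)
    (fun hl h => C.not_dvd_hlvl hl h) (fun l h => by rw [Ctx.κv, dif_pos h]) (k := n)
    (fun l => by
      unfold Ctx.κv
      split_ifs
      · exact C.kappa_pow n _
      · exact one_pow _) pt hres

/-- The point data of a residual point. -/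
def PointData.ofFamPoint (pt : LvlPt C n L) (hres : IsResidualPoint pt) : PointData C n L where
  A := pt.R
  injective := pt.injective
  x := pt.x.comp ((MvPolynomial.rename (fun l : Good (C.lvl n L) 0 => (l : Nat.Primes))).restrictScalars O)
  χ := pt.χ
  χ_T l := by
    rw [x_C_mul_X pt l.2.1]
    simp
  rep := (exists_rep pt hres).choose
  cont := (exists_rep pt hres).choose_spec.1
  det_eq := (exists_rep pt hres).choose_spec.2.1
  trace_residual := (exists_rep pt hres).choose_spec.2.2.1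
  trace_frob l hlp P hP φ hφ := by
    rw [(exists_rep pt hres).choose_spec.2.2.2.1 l.1 l.2.1 hlp P hP φ hφ]
    simp
  unramified := (exists_rep pt hres).choose_spec.2.2.2.2

@[simp] theorem PointData.ofFamPoint_x (pt : LvlPt C n L) (hres : IsResidualPoint pt)
    (s : MvPolynomial (Good (C.lvl n L) 0) (Diamond O r p n)) :
    (PointData.ofFamPoint pt hres).x s = pt.x (MvPolynomial.rename Subtype.val s) := rfl

end FermatAgent.RTLift.Setup
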