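import Fermat.Agent.RTLift.Setup.Base
import Fermat.Agent.RTLift.Setup.Points.FromFamily

/-!
# The points of a level
-/

set_option autoImplicit false

noncomputable section

namespace FermatAgent.RTLift.Setup

open IsLocalRing FermatAgent.RTLift.Modules FermatAgent.RTLift.Engine FermatAgent.RTLift.Systems
  CongruenceSubgroup

/-- Renaming symbols does not change the action. -/
theorem heckeHom_rename {Λ : Type} [CommRing Λ] {M M₀ : ℕ} (h : M₀ ∣ M) (θ : (ZMod M₀)ˣ →* Λ)
    {G : Type} (pr : G → Nat.Primes) (s : MvPolynomial G Λ) (y : H1 (levelChar h θ) Λ) :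
    heckeHom h θ Λ (id : Nat.Primes → Nat.Primes) (MvPolynomial.rename pr s) y =
      heckeHom h θ Λ pr s y := by
  induction s using MvPolynomial.induction_on generalizing y with
  | C c =>
    rw [MvPolynomial.rename_C, ← MvPolynomial.algebraMap_eq, ← MvPolynomial.algebraMap_eq,
      AlgHom.commutes, AlgHom.commutes]
  | add a b ha hb => simp only [map_add, LinearMap.add_apply, ha, hb]
  | mul_X a j ha =>
    rw [map_mul, MvPolynomial.rename_X, map_mul, Module.End.mul_apply, heckeHom_X, map_mul,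
      Module.End.mul_apply, heckeHom_X, ha]
    rfl

variable {O : Type} [CommRing O] [IsDomain O] [IsDiscreteValuationRing O]
  [IsAdicComplete (maximalIdeal O) O] [Finite (ResidueField O)] [CharZero O]
  {p r : ℕ} [Fact p.Prime] [Algebra (ZMod p) (ResidueField O)] {I : Type} [Fintype I]
  (C : Ctx O p r I)

omit [Finite (ResidueField O)] [CharZero O] in
/-- A symbol at a prime `≡ 1` modulo a multiple of the modulus which is not Eisenstein. -/
theorem Ctx.exists_nonEis_symbol_of_dvd (n : ℕ) {m : ℕ} [NeZero m] (hm : C.modulus n ∣ m) :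
    ∃ j : C.J, (j.1 : ℕ) ∉ (↑m.primeFactors : Set ℕ) ∧ (((j.1 : ℕ)) : ZMod m) = 1 ∧
      C.ξ n j ≠ ((j.1 : ℕ) : ResidueField O) + 1 := by
  classical
  obtain ⟨l, ⟨hl, hlB⟩, hl1, hal⟩ := (C.nonEis (m.primeFactors ∪
    C.Fr.support.image Subtype.val)).ne_mod m (NeZero.pos _)
  rw [Finset.mem_union, not_or] at hlB
  have hls : (⟨l, hl⟩ : Nat.Primes) ∉ C.Fr.support := fun h =>
    hlB.2 (Finset.mem_image_of_mem Subtype.val h)
  refine ⟨⟨⟨l, hl⟩, hls⟩, hlB.1, ?_, fun he => hal ?_⟩
  · have := (ZMod.intCast_zmod_eq_zero_iff_dvd _ _).mpr hl1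
    push_cast at this
    exact sub_eq_zero.mp this
  · have hQ : ∀ j, C.Q n j ≠ ⟨l, hl⟩ := fun j e => hlB.1 (Nat.mem_primeFactors.mpr ⟨hl, by
      have h := congrArg Subtype.val e
      dsimp only at h
      rw [← h]
      exact (Finset.dvd_prod_of_mem (fun j => (C.Q n j : ℕ)) (Finset.mem_univ j)).trans hm,
      NeZero.ne _⟩)
    rw [C.ξ_of_ne n _ hQ, Ctx.ξ₀] at he
    refine (algebraMap (ZMod p) (ResidueField O)).injective ?_
    simp only [map_intCast, map_add, map_natCast, map_one]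
    exact he

omit [Finite (ResidueField O)] [CharZero O] in
/-- A symbol at a prime `≡ 1` modulo a level which is not Eisenstein. -/
theorem Ctx.exists_nonEis_symbol (n : ℕ) (L : List (Option I)) :
    ∃ j : C.J, (j.1 : ℕ) ∉ (↑(C.hlvl n L).primeFactors : Set ℕ) ∧
      (((j.1 : ℕ)) : ZMod (C.hlvl n L)) = 1 ∧
      C.ξ n j ≠ ((j.1 : ℕ) : ResidueField O) + 1 :=
  C.exists_nonEis_symbol_of_dvd n ((C.modulus_dvd_lvl n L).mul_right _)

/-- **The points of a level.** -/
theorem Ctx.exists_lvlPts (n : ℕ) {L : List (Option I)} (hL : C.Admissible L) :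
    ∃ (m : ℕ) (pt : Fin m → LvlPt C n L), (∀ i, IsResidualPoint (pt i)) ∧
      (∀ i s, (∀ y ∈ C.V n L, heckeHom (R := Diamond O r p n) (C.modulus_dvd_lvl n L) (C.θ n)
        (Diamond O r p n) (id : Nat.Primes → Nat.Primes) s y = 0) → (pt i).x s = 0) ∧
      (∀ s, (∀ i, (pt i).x s = 0) → ∃ k, ∀ y ∈ C.V n L, heckeHom (R := Diamond O r p n)
        (C.modulus_dvd_lvl n L) (C.θ n) (Diamond O r p n) (id : Nat.Primes → Nat.Primes)
          (s ^ k) y = 0) ∧
      ∀ s : MvPolynomial (Good (C.lvl n L) 0) (Diamond O r p n),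
        (∀ i, (pt i).x (MvPolynomial.rename Subtype.val s) = 0) → ∀ v ∈ C.V n L,
          heckeHom (R := Diamond O r p n) (C.modulus_dvd_lvl n L) (C.θ n) (Diamond O r p n)
            (fun l : Good (C.lvl n L) 0 => (l : Nat.Primes)) s v = 0 := by
  have := C.finite_diamond n
  have := C.isTorsionFree_diamond n
  have := C.isReduced_diamond n
  obtain ⟨j₀, hj₀, hj1, hξ⟩ := C.exists_nonEis_symbol n L
  obtain ⟨m, pt, h1, h2, h3, h4⟩ := exists_family_localH1 (O := O) (C.modulus_dvd_lvl n L)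
    (C.θ n) C.pr (id : Nat.Primes → Nat.Primes) (f := (Subtype.val : C.J → Nat.Primes))
    (fun _ => rfl) (κ := C.κ n) (N := C.hlvl n L) (C.isGoodChar_lvl n hL) dvd_rfl
    (C.squarefree_modulus n) (C.coprime_modulus_lvl n L) (C.theta_eq n)
    (C.exists_odd_kappa_pow n) (S := (↑(C.hlvl n L).primeFactors : Set ℕ))
    (fun q hq hd => Nat.mem_primeFactors.mpr ⟨hq, hd, NeZero.ne _⟩)
    (fun l hl _ => ⟨⟨l, hl⟩, rfl⟩) (C.ξ n) hj₀ hj1 hξ
  refine ⟨m, pt, h2, h1, h3, fun s hs v hv => ?_⟩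
  rw [← heckeHom_rename]
  refine h4 _ ?_ hs v hv
  clear hs
  induction s using MvPolynomial.induction_on with
  | C c =>
    rw [MvPolynomial.rename_C, ← MvPolynomial.algebraMap_eq]
    exact Subalgebra.algebraMap_mem _ c
  | add a b ha hb => rw [map_add]; exact add_mem ha hb
  | mul_X a j ha =>
    rw [map_mul, MvPolynomial.rename_X]
    exact mul_mem ha (Algebra.subset_adjoin ⟨(j : Nat.Primes),
      C.notMem_primeFactors_hlvl j.1.2 j.2.1, rfl⟩)

end FermatAgent.RTLift.Setup
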