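import Fermat.Agent.RTLift.Setup.Points.Family
import Fermat.Agent.RTLift.Setup.Places
import Fermat.Agent.RTLift.NewPart.PointForm
import Fermat.Agent.RTLift.NewPart.System
import Fermat.Agent.RTLift.Systems.Detect
import Fermat.Agent.Conductor.Newform

/-!
# The newform of a point which is new at a place
-/

set_option autoImplicit false

noncomputable section

namespace FermatAgent.RTLift.Setup

open IsLocalRing FermatAgent.RTLift.Modules FermatAgent.RTLift.Engine FermatAgent.RTLift.Systems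
  FermatAgent.RTLift.NewPart CongruenceSubgroup ModularFormClass ModularCurve ModularCurve.Period
open scoped MatrixGroups

variable {O : Type} [CommRing O] [IsDomain O] [IsDiscreteValuationRing O]
  [IsAdicComplete (maximalIdeal O) O] [Finite (ResidueField O)] [CharZero O]
  {p r : ℕ} [Fact p.Prime] [Algebra (ZMod p) (ResidueField O)] {I : Type} [Fintype I]
  {C : Ctx O p r I} {n : ℕ} {L : List (Option I)}

omit [Finite (ResidueField O)] [CharZero O] in
theorem Ctx.not_dvd_place (C : Ctx O p r I) {i : Option I} (hi : i ∉ L) :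
    ¬ (C.place i : ℕ) ∣ C.lvl n L := fun h => by
  rcases C.dvd_lvl_cases h with ⟨k, hk, e⟩ | ⟨j, e⟩
  · exact hi (C.place_injective e ▸ hk)
  · exact C.place_ne_Q n i j e.symm

omit [Finite (ResidueField O)] [CharZero O] in
theorem Ctx.coprime_place (C : Ctx O p r I) (n : ℕ) (i : Option I) :
    (C.place i : ℕ).Coprime (C.modulus n) :=
  C.coprime_modulus fun j e => C.place_ne_Q n i j e.symm

omit [Finite (ResidueField O)] [CharZero O] in
theorem Ctx.kv_eq_one (C : Ctx O p r I) (n : ℕ) (L : List (Option I)) {l : Nat.Primes}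
    (h : ((l : ℕ) : ZMod (C.hlvl n L)) = 1) : C.κv n l = 1 := by
  unfold Ctx.κv
  split_ifs with hc
  · rw [show ZMod.unitOfCoprime (l : ℕ) hc = 1 from Units.ext (by
      rw [ZMod.coe_unitOfCoprime, Units.val_one, ← map_natCast (ZMod.castHom
        (dvd_mul_left (C.modulus n) (C.lvl n L)) (ZMod (C.modulus n))), h, map_one]), map_one]
  · rfl

omit [Finite (ResidueField O)] [CharZero O] in
/-- At a non-Eisenstein symbol a residual point has no Eisenstein value. -/
theorem IsResidualPoint.ne_succ {pt : LvlPt C n L} (hres : IsResidualPoint pt) {j : C.J}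
    (hj1 : (((j.1 : ℕ)) : ZMod (C.hlvl n L)) = 1)
    (hξ : C.ξ n j ≠ ((j.1 : ℕ) : ResidueField O) + 1) :
    pt.x (MvPolynomial.C (C.κv n j.1) * MvPolynomial.X j.1) ≠ ((j.1 : ℕ) : pt.R) + 1 := by
  rw [C.kv_eq_one n L hj1, map_one, one_mul]
  intro he
  obtain ⟨c, hc⟩ := residue_surjective (C.ξ n j)
  have h1 := x_X_sub_mem (f := (Subtype.val : C.J → Nat.Primes)) pt hres j hc
  rw [← residue_eq_zero_iff, map_sub, sub_eq_zero, he, ← ResidueField.map_residue, hc] at h1
  exact hξ ((ResidueField.map (algebraMap O pt.R)).injective (by simpa using h1.symm))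

omit [Finite (ResidueField O)] in
set_option synthInstance.maxHeartbeats 200000 in
/-- **A point with `κ(q) U_q = ±1` at a new place has a newform exactly divisible by `q`.** -/
theorem exists_newform_of_sq_eq_one {i : Option I} (hi : i ∉ L)
    (pt : LvlPt C n (i :: L)) (hres : IsResidualPoint pt)
    (hker : ∀ s, (∀ y ∈ C.V n (i :: L), heckeHom (R := Diamond O r p n)
      (C.modulus_dvd_lvl n (i :: L)) (C.θ n) (Diamond O r p n)
        (id : Nat.Primes → Nat.Primes) s y = 0) → pt.x s = 0)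
    (hsq : pt.x (MvPolynomial.C (C.κv n (C.place i)) * MvPolynomial.X (C.place i)) ^ 2 = 1)
    (hL : C.Admissible (i :: L)) :
    ∃ (M : ℕ) (_ : NeZero M) (g : CuspForm (Gamma0 M) 2), g.IsNewform ∧
      M ∣ C.hlvl n (i :: L) ∧ (C.place i : ℕ) ∣ M ∧ ¬ (C.place i : ℕ) ^ 2 ∣ M ∧
      ∀ P : MvPolynomial (Good (C.lvl n (i :: L)) 0) ℤ,
        MvPolynomial.aeval (fun l : Good (C.lvl n (i :: L)) 0 =>
            pt.x (MvPolynomial.C (C.κv n l.1) * MvPolynomial.X l.1)) P = 0 ↔
          MvPolynomial.aeval (fun l : Good (C.lvl n (i :: L)) 0 => qCoeff ⇑g (l.1 : ℕ)) P = 0 := by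
  classical
  have := C.finite_diamond n
  have := C.isTorsionFree_diamond n
  have := C.isReduced_diamond n
  set q : ℕ := (C.place i : ℕ)
  have hq : q.Prime := (C.place i).2
  have hqL : ¬ q ∣ C.lvl n L := C.not_dvd_place hi
  have hqL' : ¬ q ∣ C.hlvl n L := C.not_dvd_hlvl hq hqL
  let N' := C.hlvl n L * q
  have : NeZero N' := ⟨mul_ne_zero (NeZero.ne _) hq.ne_zero⟩
  have : NeZero q := ⟨hq.ne_zero⟩
  have hN' : C.hlvl n (i :: L) = N' := by
    show C.lvl n L * q * C.modulus n = C.lvl n L * C.modulus n * q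
    ring
  -- the field of a point
  have : IsNoetherianRing (Diamond O r p n) := IsNoetherianRing.of_finite O _
  let 𝔮 := RingHom.ker pt.baseHom
  have : 𝔮.IsPrime := RingHom.ker_isPrime _
  let K := FractionRing (Diamond O r p n ⧸ 𝔮)
  have hK : RingHom.ker (algebraMap (Diamond O r p n) K) = 𝔮 := ker_fractionRing_quotient 𝔮
  have : CharZero (Diamond O r p n ⧸ 𝔮) :=
    (RingHom.kerLift pt.baseHom.toRingHom).charZero
  have : CharZero K := charZero_of_injective_algebraMap
    (IsFractionRing.injective (Diamond O r p n ⧸ 𝔮) K)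
  have hχ := C.isGoodChar_lvl n hL
  have hfinH := finite_h1 (R := O) (A := Diamond O r p n) (C.modulus_dvd_lvl n (i :: L)) (C.θ n) hχ
  have := isNoetherian_of_isNoetherianRing_of_finite O
    (H1 (levelChar (C.modulus_dvd_lvl n (i :: L)) (C.θ n)) (Diamond O r p n))
  have : Module.Finite O (C.V n (i :: L)) :=
    Module.Finite.of_injective ((C.V n (i :: L)).subtype.restrictScalars O) Subtype.val_injective
  -- the twist
  set R₀ := C.lvl n (i :: L) / C.modulus n
  obtain ⟨Φ, hΦinj, hT, hU⟩ := exists_twist_heckeU K (C.modulus_dvd_lvl n (i :: L)) R₀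
    (Nat.mul_div_cancel' (C.modulus_dvd_lvl n (i :: L))).symm
    (C.coprime_modulus_lvl n (i :: L)) (C.squarefree_modulus n) (mapChar (C.κ n) K)
    (mapChar (C.θ n) K) (mapChar_sq (C.theta_eq n) K)
    (mapChar_eq_one_of_sq (C.exists_odd_kappa_pow n) K) N' (hN' ▸ dvd_rfl)
  obtain ⟨j₀, hj₀, hj1, hξ⟩ := C.exists_nonEis_symbol n (i :: L)
  have hj₀L : ¬ (j₀.1 : ℕ) ∣ C.lvl n (i :: L) := fun hd =>
    hj₀ (Nat.mem_primeFactors.mpr ⟨j₀.1.2, hd.mul_right _, NeZero.ne _⟩)
  have hgN : ∀ l : Good (C.lvl n (i :: L)) 0, ¬ (l.1 : ℕ) ∣ N' := fun l =>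
    hN' ▸ C.not_dvd_hlvl l.1.2 l.2.1
  have hκv : ∀ l : Good (C.lvl n (i :: L)) 0, ∀ hc : (l.1 : ℕ).Coprime (C.modulus n),
      algebraMap (Diamond O r p n) K (C.κv n l.1) =
        mapChar (C.κ n) K (ZMod.unitOfCoprime (l.1 : ℕ) hc) := fun l hc => by
    rw [Ctx.κv, dif_pos hc]
    rfl
  obtain ⟨e, he2, he⟩ : ∃ e : ℤ, e ^ 2 = 1 ∧
      pt.x (MvPolynomial.C (C.κv n (C.place i)) * MvPolynomial.X (C.place i)) = (e : pt.R) := by
    rcases sq_eq_one_iff.mp hsq with h1 | h1
    · exact ⟨1, one_pow 2, h1.trans Int.cast_one.symm⟩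
    · exact ⟨-1, neg_one_sq, h1.trans (by simp)⟩
  have hqN' : q ∣ N' := dvd_mul_left q _
  -- the eigenspace of `U_q`
  let W : Submodule ℂ (CF N') := LinearMap.ker
    (CuspForm.heckeULin 2 hqN' - (e : ℂ) • (1 : Module.End ℂ (CF N')))
  have hWmem : ∀ f, f ∈ W ↔ CuspForm.heckeULin 2 hqN' f = (e : ℂ) • f := fun f => by
    simp [W, LinearMap.mem_ker, sub_eq_zero]
  have hW : IsHeckeStable W := fun t f hf => by
    rw [hWmem] at hf ⊢
    have h1 := LinearMap.congr_fun (congrArg Subtype.val (mul_comm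
      (CuspForm.heckeAlgebra.U (k := 2) hq hqN' (Set.notMem_empty q)) t)) f
    exact h1.trans ((congrArg t.1 hf).trans (map_smul t.1 _ f))
  obtain ⟨y, hyW, hy, hsys⟩ := exists_eigenform_of_famPoint (C.modulus_dvd_lvl n (i :: L))
    (id : Nat.Primes → Nat.Primes) pt (C.V n (i :: L))
    (fun s y hy => heckeHom_mem_localH1 (f := (Subtype.val : C.J → Nat.Primes))
      (C.modulus_dvd_lvl n (i :: L)) (C.θ n) C.pr id (fun _ => rfl) (C.ξ n) s hy)
    hker K hK (exists_fraction_quotient 𝔮) Φ hΦinj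
    (fun l : Good (C.lvl n (i :: L)) 0 => l.1) (fun l => l.2.1) hgN (fun l => C.κv n l.1)
    (fun l y => by
      have hc : (l.1 : ℕ).Coprime (C.modulus n) :=
        l.1.2.coprime_iff_not_dvd.mpr fun hd => l.2.1 (hd.trans (C.modulus_dvd_lvl n _))
      rw [hκv l hc]
      exact hT _ l.1.2 l.2.1 (hgN l) hc y)
    ⟨j₀.1, hj₀L, j₀.1.2.ne_zero⟩ (hN' ▸ hj1) (hres.ne_succ hj1 hξ) W hW (fun x hx s u f g hfg => by
    have hcop : q.Coprime (C.modulus n) := C.coprime_place n i
    have hqM : q ∣ C.lvl n (i :: L) := dvd_mul_left q _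
    have hUq : ∀ z, heckeHom (R := Diamond O r p n) (C.modulus_dvd_lvl n (i :: L)) (C.θ n)
        (Diamond O r p n) (id : Nat.Primes → Nat.Primes)
        (MvPolynomial.C (C.κv n (C.place i)) * MvPolynomial.X (C.place i)) z =
        C.κ n (ZMod.unitOfCoprime q hcop) •
          heckeU (C.modulus_dvd_lvl n (i :: L)) (C.θ n) (Diamond O r p n) hqM z := fun z => by
      rw [map_mul, Module.End.mul_apply, heckeHom_X, ← MvPolynomial.algebraMap_eq, AlgHom.commutes,
        Module.algebraMap_end_apply, id_eq, heckeOp_of_dvd _ _ _ hqM, Ctx.κv, dif_pos hcop]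
    set ψ := Φ (toFieldH1 (C.modulus_dvd_lvl n (i :: L)) (C.θ n) K
      (heckeHom (C.modulus_dvd_lvl n (i :: L)) (C.θ n) (Diamond O r p n)
        (id : Nat.Primes → Nat.Primes) s x))
    have hψ : Periods.heckeHomU K N' hqN' ψ = e • ψ := by
      have hmain : ∀ (A : MvPolynomial Nat.Primes (Diamond O r p n)) (z : ℤ), pt.x A = (z : pt.R) →
          heckeHom (R := Diamond O r p n) (C.modulus_dvd_lvl n (i :: L)) (C.θ n)
            (Diamond O r p n) (id : Nat.Primes → Nat.Primes) A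
            (heckeHom (C.modulus_dvd_lvl n (i :: L)) (C.θ n) (Diamond O r p n)
              (id : Nat.Primes → Nat.Primes) s x) =
          z • heckeHom (R := Diamond O r p n) (C.modulus_dvd_lvl n (i :: L)) (C.θ n)
            (Diamond O r p n) (id : Nat.Primes → Nat.Primes) s x := fun A z hA => by
        have h1 := hx (A * s - z • s) (by rw [map_sub, map_mul, map_zsmul, hA, zsmul_eq_mul, sub_self])
        rwa [map_sub, map_mul, map_zsmul, LinearMap.sub_apply, Module.End.mul_apply,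
          LinearMap.smul_apply, sub_eq_zero] at h1
      have h0 := hmain _ e he
      rw [hUq] at h0
      rw [hU q hqM hqN' hcop, ← toFieldH1_heckeU, ← map_smul]
      show Φ (algebraMap (Diamond O r p n) K (C.κ n (ZMod.unitOfCoprime q hcop)) • _) = _
      rw [← toFieldH1_smul, h0, map_zsmul, map_zsmul]
    have hper : periodHomPair N' (CuspForm.heckeULin 2 hqN' f, CuspForm.heckeULin 2 hqN' g) =
        periodHomPair N' ((e : ℂ) • f, (e : ℂ) • g) := by
      rw [Periods.periodHomPair_heckeULin, hfg, heckeHomU_comp (R := K), hψ,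
        Int.cast_smul_eq_zsmul, Int.cast_smul_eq_zsmul, ← Prod.smul_mk, map_zsmul, hfg]
      exact AddMonoidHom.ext fun γ => map_zsmul u e _
    have hinj := ModCurve.Forms.periodHomPair_injective N' hper
    exact ⟨(hWmem f).mpr (Prod.ext_iff.mp hinj).1, (hWmem g).mpr (Prod.ext_iff.mp hinj).2⟩)
  have hU2 : qCoeff ⇑y q ^ 2 = 1 := by
    obtain ⟨χ, hχ', -, hχU⟩ := DSLift.exists_ringHom_of_isNormalizedEigenform hy (∅ : Set ℕ)
    have h1 := hχ' (CuspForm.heckeAlgebra.U hq hqN' (Set.notMem_empty q))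
    rw [hχU] at h1
    have h2 : qCoeff ⇑y q = (e : ℂ) := by
      have h3 := congrArg (fun f : CF N' => qCoeff ⇑f 1) (h1.symm.trans ((hWmem y).mp hyW))
      rwa [DSLift.qCoeff_smul', DSLift.qCoeff_smul', hy.qCoeff_one, mul_one, mul_one] at h3
    rw [h2, ← Int.cast_pow, he2, Int.cast_one]
  obtain ⟨M, hM0, hMN, g, hg, hgy⟩ := Conductor.exists_newform_of_eigenform (NeZero.ne N') hy
  have := NeZero.mk hM0
  refine ⟨M, inferInstance, g, hg, hN' ▸ hMN,
    dvd_level_of_U_sq hq hqL' hy hU2 hg.1 hMN fun l hl hlN => (hgy l hl hlN).symm, fun h2 => ?_,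
    fun P => ?_⟩
  · refine hqL' ((Nat.mul_dvd_mul_iff_right hq.pos).mp ?_)
    rw [← sq]
    exact h2.trans hMN
  · rw [hsys P]
    have hfun : (fun l : Good (C.lvl n (i :: L)) 0 => qCoeff ⇑g (l.1 : ℕ)) =
        fun l => qCoeff ⇑y (l.1 : ℕ) := funext fun l => hgy _ l.1.2 (hgN l)
    rw [hfun]
    rfl

end FermatAgent.RTLift.Setup
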