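import Fermat.Agent.RTLift.Setup.PointData
import Fermat.Agent.Conductor.Residual
import Fermat.Agent.GalRep.Density.BrauerNesbitt

/-!
# The residual representation of a point

The residual representation of the context is absolutely irreducible, being irreducible and odd;
the residual representation of a lift, in particular of a point, is conjugate to it.
-/

set_option autoImplicit false

noncomputable section

namespace FermatAgent.RTLift.Setup

open IsLocalRing Matrix

local notation "Qb" => AlgebraicClosure ℚ
local notation "GQ" => AlgebraicClosure ℚ ≃ₐ[ℚ] AlgebraicClosure ℚ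

section Ctx

variable {O : Type} [CommRing O] [IsLocalRing O] [IsAdicComplete (maximalIdeal O) O]
  {p r : ℕ} [Fact p.Prime] [Algebra (ZMod p) (ResidueField O)] {I : Type} [Fintype I]
  (C : Ctx O p r I)

/-- The residual representation of the context. -/
def Ctx.resRep : ResidualGaloisRep (ResidueField O) where
  V := Fin 2 → ResidueField O
  finrank_eq := by simp
  ρ := (Matrix.toLinAlgEquiv' : Matrix (Fin 2) (Fin 2) (ResidueField O) ≃ₐ[ResidueField O]
    _).toMonoidHom.comp ((Units.coeHom _).comp C.ρ)
  factorsThroughFiniteLevel := by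
    obtain ⟨L, hL, h⟩ := C.twHyp.finiteLevel
    refine ⟨L, hL, fun σ hσ => ?_⟩
    have h1 := h σ ((IntermediateField.mem_fixingSubgroup_iff _ _).mpr hσ)
    simp [h1, Module.End.one_eq_id]

theorem Ctx.resRep_charpoly (σ : GQ) :
    (C.resRep.ρ σ).charpoly = (C.ρ σ : Matrix (Fin 2) (Fin 2) (ResidueField O)).charpoly :=
  Matrix.charpoly_toLin' _

theorem Ctx.resRep_isIrreducible : C.resRep.IsIrreducible := by
  intro W hW
  by_contra hcon
  obtain ⟨hbot, htop⟩ := not_or.mp hcon
  obtain ⟨v, hv, hv0⟩ := Submodule.exists_mem_ne_zero_of_ne_bot hbot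
  have hWv : W = Submodule.span _ {v} := by
    refine (Submodule.eq_of_le_of_finrank_le
      ((Submodule.span_singleton_le_iff_mem _ _).mpr hv) ?_).symm
    rw [finrank_span_singleton hv0]
    have h1 := Submodule.finrank_lt htop
    have h2 := C.resRep.finrank_eq
    omega
  obtain ⟨σ, hσ⟩ := C.twHyp.noFixedPoint v hv0
  have h1 := hW σ v hv
  rw [hWv, Submodule.mem_span_singleton] at h1
  obtain ⟨a, ha⟩ := h1
  exact hσ a ha.symm

theorem Ctx.resRep_isAbsolutelyIrreducible : C.resRep.IsAbsolutelyIrreducible := by
  refine GalRep.residual_isAbsolutelyIrreducible_of_det _ C.resRep_isIrreducible ?_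
    (TW.two_ne_zero_of C.twHyp.ne_two)
  refine (LinearMap.det_toLin' _).trans ((C.det_cyclo complexConjugation).symm.trans ?_)
  rw [GalRep.cycChar_complexConjugation, map_neg, map_one, map_neg, map_one]

end Ctx

namespace QLow

section Lift

variable {O : Type} [CommRing O] [IsDomain O] [IsDiscreteValuationRing O]
  [IsAdicComplete (maximalIdeal O) O]
  {p r : ℕ} [Fact p.Prime] [Algebra (ZMod p) (ResidueField O)] {I : Type} [Fintype I]
  {C : Ctx O p r I}

/-- A lift of the residual data in a local `O`-algebra. -/
structure IsLift (C : Ctx O p r I) {A : Type} [CommRing A] [IsLocalRing A] [Algebra O A]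
    (rep : GQ →* Matrix (Fin 2) (Fin 2) A) : Prop where
  isLocalHom : IsLocalHom (algebraMap O A)
  cont : DefRing.IsCont rep
  det_eq : ∀ σ, (rep σ).det = algebraMap O A (C.χ σ)
  trace_residual : ∀ σ, ∃ o : O,
    residue O o = Matrix.trace (C.ρ σ : Matrix (Fin 2) (Fin 2) (ResidueField O)) ∧
      Matrix.trace (rep σ) - algebraMap O A o ∈ maximalIdeal A

variable {A : Type} [CommRing A] [IsLocalRing A] [Algebra O A]
  {rep : GQ →* Matrix (Fin 2) (Fin 2) A}

/-- The map of residue fields. -/
def IsLift.resMap (h : IsLift C rep) : ResidueField O →+* ResidueField A :=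
  haveI := h.isLocalHom
  ResidueField.map (algebraMap O A)

theorem IsLift.residue_algebraMap (h : IsLift C rep) (o : O) :
    residue A (algebraMap O A o) = h.resMap (residue O o) :=
  haveI := h.isLocalHom
  (ResidueField.map_residue _ _).symm

theorem IsLift.residue_trace (h : IsLift C rep) (σ : GQ) : residue A (rep σ).trace =
    h.resMap (C.ρ σ : Matrix (Fin 2) (Fin 2) (ResidueField O)).trace := by
  obtain ⟨o, ho, hmem⟩ := h.trace_residual σ
  rw [← residue_eq_zero_iff, map_sub, sub_eq_zero] at hmem
  rw [hmem, ← ho, h.residue_algebraMap]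

theorem IsLift.residue_det (h : IsLift C rep) (σ : GQ) : residue A (rep σ).det =
    h.resMap (C.ρ σ : Matrix (Fin 2) (Fin 2) (ResidueField O)).det := by
  rw [h.det_eq, ← C.det_cyclo, h.residue_algebraMap]
  rfl

theorem IsLift.residual_charpoly (h : IsLift C rep) (σ : GQ) :
    ((DefRing.toAdic rep h.cont).residual.ρ σ).charpoly =
      (C.resRep.ρ σ).charpoly.map h.resMap := by
  obtain ⟨b, hb⟩ := DefRing.residual_toAdic_matrices rep h.cont
  rw [C.resRep_charpoly, Matrix.charpoly_fin_two, ← LinearMap.charpoly_toMatrix _ b,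
    show LinearMap.toMatrix b b ((DefRing.toAdic rep h.cont).residual.ρ σ) =
      (residue A).mapMatrix (rep σ) from DFunLike.congr_fun hb σ,
    RingHom.mapMatrix_apply, Matrix.charpoly_map, Matrix.charpoly_fin_two]
  simp [h.residue_trace, h.residue_det]

/-- The residual representation of a lift is absolutely irreducible. -/
theorem IsLift.residual_absIrr (h : IsLift C rep) :
    (DefRing.toAdic rep h.cont).residual.IsAbsolutelyIrreducible :=
  Conductor.isAbsolutelyIrreducible_of_charpoly_map C.resRep C.resRep_isAbsolutelyIrreducible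
    h.resMap _ h.residual_charpoly

/-- The reduction of a lift is conjugate to the residual representation. -/
theorem IsLift.exists_conj (h : IsLift C rep) :
    ∃ (b : Module.Basis (Fin 2) (ResidueField A) (DefRing.toAdic rep h.cont).residual.V)
      (Q : Matrix (Fin 2) (Fin 2) (ResidueField A)), IsUnit Q.det ∧
      (∀ σ, DefRing.rmat b (DefRing.toAdic rep h.cont).residual.ρ σ = (rep σ).map (residue A)) ∧
      ∀ σ, Q * (rep σ).map (residue A) =
        (C.ρ σ : Matrix (Fin 2) (Fin 2) (ResidueField O)).map h.resMap * Q := by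
  obtain ⟨b, hb⟩ := DefRing.residual_toAdic_matrices rep h.cont
  obtain ⟨b', hb'⟩ := DefRing.rmat_baseChangeAlong h.resMap C.resRep
    (Pi.basisFun (ResidueField O) (Fin 2))
  have hM : ∀ τ, DefRing.rmat b (DefRing.toAdic rep h.cont).residual.ρ τ =
      (rep τ).map (residue A) := fun τ => DFunLike.congr_fun hb τ
  have hF : ∀ τ, DefRing.rmat b' (C.resRep.baseChangeAlong h.resMap).ρ τ =
      (C.ρ τ : Matrix (Fin 2) (Fin 2) (ResidueField O)).map h.resMap := fun τ =>
    (DFunLike.congr_fun hb' τ).trans (congrArg (fun M => Matrix.map M h.resMap)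
      (LinearMap.toMatrix'_toLin' (C.ρ τ : Matrix (Fin 2) (Fin 2) (ResidueField O))))
  have he : (DefRing.toAdic rep h.cont).residual.IsEquiv
      (C.resRep.baseChangeAlong h.resMap) :=
    GalRep.residual_isEquiv_of_trace_eq _ _ h.residual_absIrr fun τ => by
      rw [LinearMap.trace_eq_matrix_trace _ b, LinearMap.trace_eq_matrix_trace _ b',
        ← DefRing.rmat_apply, ← DefRing.rmat_apply, hM, hF]
      exact ((AddMonoidHom.map_trace (residue A).toAddMonoidHom _).symm.trans
        (h.residue_trace τ)).trans (AddMonoidHom.map_trace h.resMap.toAddMonoidHom _)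
  obtain ⟨Q, hQ, hQc⟩ := DefRing.exists_conj_rmat he b b'
  exact ⟨b, Q, hQ, hM, fun τ => by rw [← hM, ← hF, hQc]⟩

/-- Where the residual representation is trivial, so is the reduction of a lift. -/
theorem IsLift.sub_one_mem (h : IsLift C rep) {σ : GQ} (hσ : C.ρ σ = 1) :
    ∀ a b, (rep σ - 1) a b ∈ maximalIdeal A := by
  obtain ⟨-, Q, hQ, -, hQc⟩ := h.exists_conj
  have h1 := hQc σ
  rw [hσ, Units.val_one, Matrix.map_one _ (map_zero _) (map_one _), one_mul] at h1
  have h2 : (rep σ).map (residue A) = 1 := by
    rw [← one_mul ((rep σ).map (residue A)), ← Matrix.nonsing_inv_mul _ hQ, mul_assoc, h1]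
  intro a b
  rw [← residue_eq_zero_iff, Matrix.sub_apply, map_sub, sub_eq_zero]
  refine (congrFun (congrFun h2 a) b).trans ?_
  rw [Matrix.one_apply, Matrix.one_apply, apply_ite (residue A), map_one, map_zero]

end Lift

end QLow

variable {O : Type} [CommRing O] [IsDomain O] [IsDiscreteValuationRing O]
  [IsAdicComplete (maximalIdeal O) O]
  {p r : ℕ} [Fact p.Prime] [Algebra (ZMod p) (ResidueField O)] {I : Type} [Fintype I]
  {C : Ctx O p r I} {n : ℕ} {L : List (Option I)}

namespace PointData

variable (P : PointData C n L)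

/-- A point is a lift of the residual data. -/
theorem isLift : QLow.IsLift C P.rep := ⟨inferInstance, P.cont, P.det_eq, P.trace_residual⟩

/-- The map of residue fields. -/
abbrev resMap : ResidueField O →+* ResidueField P.A :=
  ResidueField.map (algebraMap O P.A)

theorem residue_trace (σ : GQ) : residue P.A (P.rep σ).trace =
    P.resMap (C.ρ σ : Matrix (Fin 2) (Fin 2) (ResidueField O)).trace :=
  P.isLift.residue_trace σ

theorem residue_det (σ : GQ) : residue P.A (P.rep σ).det =
    P.resMap (C.ρ σ : Matrix (Fin 2) (Fin 2) (ResidueField O)).det :=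
  P.isLift.residue_det σ

/-- The residual representation of a point is absolutely irreducible. -/
theorem residual_absIrr : (DefRing.toAdic P.rep P.cont).residual.IsAbsolutelyIrreducible :=
  P.isLift.residual_absIrr

end PointData

end FermatAgent.RTLift.Setup
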