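import Fermat.Agent.RTLift.Setup.Points.NewTrace
import Fermat.Agent.RTLift.Setup.Points.StrictCore

/-!
# Points whose newform has `p` exactly in its level are strict at `p`

The toric relation of the Tate module of `J₀(p M')` holds in the representation of the point, the
newform not coming from level `M'`.
-/

set_option autoImplicit false
set_option linter.unusedSectionVars false
set_option maxHeartbeats 1600000

noncomputable section

namespace FermatAgent.RTLift.Setup

open IsLocalRing FermatAgent.RTLift.Engine CuspForm CongruenceSubgroup ModularFormClass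
open FermatAgent.GalRep FermatAgent.BadRed FermatAgent.BadRed.AtP FermatAgent.BadRed.Semistable
  FermatAgent.BadRed.Carayol FermatAgent.LocalP.UnitRoot

local notation "Qb" => AlgebraicClosure ℚ
local notation "GQ" => AlgebraicClosure ℚ ≃ₐ[ℚ] AlgebraicClosure ℚ

variable {O : Type} [CommRing O] [IsDomain O] [IsDiscreteValuationRing O]
  [IsAdicComplete (maximalIdeal O) O] [Finite (ResidueField O)] [CharZero O]
  {p r : ℕ} [Fact p.Prime] [Algebra (ZMod p) (ResidueField O)] {I : Type} [Fintype I]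
  {C : Ctx O p r I} {n : ℕ} {L : List (Option I)}

/-- **A point whose newform has level exactly divisible by `p` is strict at `p`.** -/
theorem PointData.isStrictPoint_of_newform (P : PointData C n L) {M : ℕ} [NeZero M]
    {g : CuspForm (Gamma0 M) 2} (hg : g.IsNewform) (hMN : M ∣ C.hlvl n L)
    (hsys : ∀ Q : MvPolynomial (Good (C.lvl n L) 0) ℤ,
      MvPolynomial.aeval (fun l : Good (C.lvl n L) 0 =>
          P.x (MvPolynomial.C (C.κv n l.1) * MvPolynomial.X l)) Q = 0 ↔
        MvPolynomial.aeval (fun l : Good (C.lvl n L) 0 => qCoeff (⇑g) (l.1 : ℕ)) Q = 0)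
    (hpM : p ∣ M) (hp2M : ¬ p ^ 2 ∣ M) {A : ValuationSubring Qb} (hA : A.LiesOverPrime p) :
    Galois.IsStrictPoint C.χ P.rep A := by
  classical
  have hp2 : p ≠ 2 := C.twHyp.ne_two
  obtain ⟨M', rfl⟩ := hpM
  have : NeZero M' := ⟨fun h => NeZero.ne (p * M') (by rw [h, mul_zero])⟩
  let S : Finset ℕ := insert p (C.hlvl n L).primeFactors
  have hMS : ∀ q : ℕ, q.Prime → q ∣ p * M' → q ∈ (↑S : Set ℕ) := fun q hq hd =>
    Finset.mem_insert_of_mem (Nat.mem_primeFactors.mpr ⟨hq, hd.trans hMN, NeZero.ne _⟩)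
  obtain ⟨chig, -, hchig, -⟩ := DSLift.exists_ringHom_of_isNormalizedEigenform hg.1 (↑S : Set ℕ)
  have hgood : ∀ ℓ : ℕ, ℓ ∉ (↑S : Set ℕ) → ℓ.Prime → ℓ ≠ p ∧ ¬ ℓ ∣ C.lvl n L := fun ℓ hℓ hℓp =>
    ⟨fun e => hℓ (e ▸ Finset.mem_insert_self _ _), fun hd => hℓ (Finset.mem_insert_of_mem
      (Nat.mem_primeFactors.mpr ⟨hℓp, hd.mul_right _, NeZero.ne _⟩))⟩
  obtain ⟨iota, hiota⟩ := exists_iota hchig hMS (fun l : Good (C.lvl n L) 0 => l.1)
    (fun ℓ hℓ => ⟨⟨ℓ, (hgood _ hℓ ℓ.2).2, ℓ.2.ne_zero⟩, rfl⟩)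
    (fun l => P.x (MvPolynomial.C (C.κv n l.1) * MvPolynomial.X l)) hsys
  set π : heckeAlgebra (p * M') 2 (↑S : Set ℕ) →+* P.A := iota.comp chig.rangeRestrict with hπdef
  set ρ := DefRing.toAdic P.rep P.cont
  have hpA : (p : P.A) ∈ maximalIdeal P.A := P.natCast_mem_maximalIdeal
  have hρ : HasFrobCharpolys π ρ S := fun ℓ hℓ hℓM hℓS _ B hB σ hσ => by
    obtain ⟨hℓp, hℓL⟩ := hgood ℓ hℓS hℓ
    let l : Good (C.lvl n L) 0 := ⟨⟨ℓ, hℓ⟩, hℓL, hℓ.ne_zero⟩
    rw [charpoly_toAdic, P.det_frob hℓ hℓp hB hσ, P.trace_frob l hℓp B hB σ hσ,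
      ← hiota l hℓM hℓS]
    rfl
  have hco : p.Coprime M' := (level_facts Fact.out hp2M hMS).1
  obtain ⟨t, ht, hχt⟩ := exists_mem_ker_oldRes hco hg chig hchig hMS (S' := ↑S) subset_rfl
  have hπt : π t ≠ 0 := fun e => by
    have : Module.Finite ℤ (heckeAlgebra (p * M') 2 (↑S : Set ℕ)) :=
      DSLift.heckeAlgebra_finite (by norm_num) (ModCurve.Forms.hasIntegralStructure_two _) _
    have : Algebra.IsIntegral ℤ chig.range := ⟨fun x => by
      obtain ⟨y, rfl⟩ := chig.rangeRestrict_surjective x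
      exact (Algebra.IsIntegral.isIntegral y).map chig.rangeRestrict.toIntAlgHom⟩
    have h0 := injective_of_integral iota (a₁ := chig.rangeRestrict t) (a₂ := 0)
      (e.trans (map_zero iota).symm)
    exact hχt (congrArg Subtype.val h0)
  exact isStrictPoint_of_ker_oldRes hp2 hpA P.cont P.det_eq P.residual_absIrr hco hMS π hρ ht hπt hA

end FermatAgent.RTLift.Setup
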